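import Fermat.Agent.Mazur.PointUnit

/-!
# The form `(η(τ) η(2τ)) ^ 8`

Its cube is `Δ(τ) Δ(2τ)`, so it transforms under `Γ₀(2)` by a cube root of unity; this root is one
on the translation and on the element of order four, which generate.
-/

set_option autoImplicit false
set_option linter.style.haveILetI false
set_option linter.unusedSectionVars false
set_option maxHeartbeats 1000000
set_option synthInstance.maxHeartbeats 400000

noncomputable section

open UpperHalfPlane hiding I I_re I_im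
open Filter Topology Complex Function CongruenceSubgroup ModularCurve
open FLTAgent.X0Fn (affMap qh)
open FLTAgent.ModEq (qp HasExp substHom deltaSer deltaInvSer etaFun)
open FLTAgent.ES (dlt)
open scoped MatrixGroups Manifold ModularForm

namespace FLTAgent.ModLift.AtP

/-- `τ ↦ d τ`. -/
abbrev scale (d : ℕ) : ℍ → ℍ := affMap d 1 0

theorem coe_scale {d : ℕ} (hd : d ≠ 0) (τ : ℍ) : (scale d τ : ℂ) = (d : ℂ) * τ := by
  rw [X0Fn.coe_affMap hd one_ne_zero]
  simp

theorem qp_scale {n d : ℕ} [NeZero n] (hd : d ≠ 0) (τ : ℍ) :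
    qp 1 (scale d τ) = qp n τ ^ (d * n) := by
  have h := X0Fn.qh_affMap (N := n) hd one_ne_zero (one_dvd n) 0 τ
  simp only [Nat.div_one] at h
  simpa [qp, qh] using h

theorem qp_one_add (τ : ℍ) (z : ℍ) (h : (z : ℂ) = τ + 1) : qp 1 z = qp 1 τ := by
  simp only [qp, Periodic.qParam, h, Nat.cast_one, Complex.ofReal_one, div_one, mul_add, mul_one,
    Complex.exp_add, Complex.exp_two_pi_mul_I]

/-- `(η(τ) η(2τ)) ^ 8`. -/
def etaTwo (τ : ℍ) : ℂ := qp 1 τ * etaFun (qp 1 τ) ^ 8 * etaFun (qp 1 (scale 2 τ)) ^ 8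

theorem etaTwo_cube (τ : ℍ) : etaTwo τ ^ 3 = dlt τ * dlt (scale 2 τ) := by
  have h := ModEq.discriminant_eq_qp τ
  have h2 := ModEq.discriminant_eq_qp (scale 2 τ)
  have e : qp 1 (scale 2 τ) = qp 1 τ ^ 2 := by
    simpa using qp_scale (n := 1) (d := 2) two_ne_zero τ
  show _ = ModularForm.discriminant τ * ModularForm.discriminant (scale 2 τ)
  rw [h, h2, etaTwo, e]
  ring

theorem etaTwo_ne_zero (τ : ℍ) : etaTwo τ ≠ 0 := fun h => by
  have := etaTwo_cube τ
  rw [h, zero_pow (by norm_num)] at this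
  exact mul_ne_zero (ES.dlt_ne_zero _) (ES.dlt_ne_zero _) this.symm

theorem mdiff_etaFun_qp {g : ℍ → ℍ} (hg : MDiff g) : MDiff fun τ => etaFun (qp 1 (g τ)) := by
  have h1 : MDiff (fun τ : ℍ => etaFun (qp 1 τ)) := by
    rw [UpperHalfPlane.mdifferentiable_iff]
    intro z hz
    have hq : DifferentiableAt ℂ (fun w : ℂ => Periodic.qParam 1 w) z :=
      (Periodic.differentiable_qParam (h := (1 : ℝ))).differentiableAt
    have he : DifferentiableAt ℂ etaFun (Periodic.qParam 1 z) :=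
      ModularForm.differentiableOn_tprod_one_sub_pow.differentiableAt
        (Metric.isOpen_ball.mem_nhds (mem_ball_zero_iff.2
          (Periodic.norm_qParam_lt_one one_pos hz)))
    refine ((he.comp z hq).congr_of_eventuallyEq ?_).differentiableWithinAt
    filter_upwards [isOpen_upperHalfPlaneSet.mem_nhds hz] with w hw
    simp [qp, Function.comp_apply, ofComplex_apply_of_im_pos hw]
  exact h1.comp hg

theorem mdiff_qp_one : MDiff (qp 1) := by
  have h := X0Fn.mdiff_qh (h := ((1 : ℕ) : ℝ))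
  exact h

theorem mdiff_etaTwo : MDiff etaTwo :=
  (mdiff_qp_one.mul ((mdiff_etaFun_qp mdifferentiable_id).pow 8)).mul
    ((mdiff_etaFun_qp (X0Fn.mdiff_affMap two_ne_zero one_ne_zero 0)).pow 8)

/-- For `γ ∈ Γ₀(2)` the conjugate moving `2τ` as `γ` moves `τ`. -/
theorem exists_conj_two {γ : SL(2, ℤ)} (hγ : (2 : ℤ) ∣ γ 1 0) :
    ∃ γ' : SL(2, ℤ), ∀ τ : ℍ, scale 2 (γ • τ) = γ' • scale 2 τ ∧
      denom γ' (scale 2 τ : ℂ) = denom γ (τ : ℂ) := by
  obtain ⟨c, hc⟩ := hγ
  set γ' : SL(2, ℤ) := ⟨!![γ 0 0, 2 * γ 0 1; c, γ 1 1], by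
    rw [Matrix.det_fin_two_of]
    have := GoodModel.det_eq γ
    rw [hc] at this
    linear_combination this⟩ with hγ'
  refine ⟨γ', fun τ => ⟨?_, ?_⟩⟩
  · apply UpperHalfPlane.ext
    rw [coe_scale two_ne_zero, UpperHalfPlane.coe_specialLinearGroup_apply,
      UpperHalfPlane.coe_specialLinearGroup_apply, coe_scale two_ne_zero]
    simp [hγ', hc]
    ring
  · rw [ModularGroup.denom_apply, ModularGroup.denom_apply, coe_scale two_ne_zero]
    simp [hγ', hc]
    ring

/-- `Γ₀(2)` acts on the form by a constant cube root of unity. -/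
theorem exists_multiplier {γ : SL(2, ℤ)} (hγ : (2 : ℤ) ∣ γ 1 0) :
    ∃ χ : ℂ, χ ^ 3 = 1 ∧ etaTwo ∣[(8 : ℤ)] γ = χ • etaTwo := by
  set r : ℍ → ℂ := fun τ => (etaTwo ∣[(8 : ℤ)] γ) τ / etaTwo τ with hr
  have hd : ∀ τ : ℍ, denom γ (τ : ℂ) ≠ 0 := fun τ =>
    UpperHalfPlane.denom_ne_zero (γ : GL (Fin 2) ℝ) τ
  have hr3 : ∀ τ, r τ ^ 3 = 1 := by
    intro τ
    obtain ⟨γ', hγ'⟩ := exists_conj_two hγ
    obtain ⟨e1, e2⟩ := hγ' τ
    have h := etaTwo_cube (γ • τ)
    rw [e1, ES.top_apply_smul ES.dlt_mem γ' (scale 2 τ), e2, ES.top_apply_smul ES.dlt_mem] at h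
    rw [hr]
    simp only [ModularForm.SL_slash_apply, div_pow, mul_pow]
    rw [h, etaTwo_cube τ]
    have := ES.dlt_ne_zero τ
    have := ES.dlt_ne_zero (scale 2 τ)
    have := hd τ
    simp only [zpow_neg]
    field_simp
  have hrc : Continuous r := by
    have h1 := ES.mdiff_slash_SL (k := 8) mdiff_etaTwo γ
    exact h1.continuous.div mdiff_etaTwo.continuous etaTwo_ne_zero
  have hfin : {z : ℂ | z ^ 3 = 1}.Finite := by
    refine (Polynomial.finite_setOfPred_isRoot (R := ℂ) (p := Polynomial.X ^ 3 - Polynomial.C 1)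
      (Polynomial.X_pow_sub_C_ne_zero three_pos _)).subset fun z hz => ?_
    simp only [Set.mem_setOf_eq, Polynomial.IsRoot.def, Polynomial.eval_sub, Polynomial.eval_pow,
      Polynomial.eval_X, Polynomial.eval_C] at hz ⊢
    rw [hz, sub_self]
  haveI : DiscreteTopology {z : ℂ | z ^ 3 = 1} := by
    haveI := hfin.to_subtype
    infer_instance
  have hconst : ∀ τ, r τ = r UpperHalfPlane.I := fun τ => by
    have h := PreconnectedSpace.constant (α := ℍ)
      (Y := {z : ℂ | z ^ 3 = 1}) inferInstance (f := fun τ => ⟨r τ, hr3 τ⟩)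
      (hrc.subtype_mk hr3) (x := τ) (y := UpperHalfPlane.I)
    exact congrArg Subtype.val h
  refine ⟨r UpperHalfPlane.I, hr3 _, funext fun τ => ?_⟩
  rw [Pi.smul_apply, smul_eq_mul, ← hconst τ]
  exact (div_mul_cancel₀ _ (etaTwo_ne_zero τ)).symm

/-- The element of order four of `Γ₀(2)`. -/
def ellTwo : SL(2, ℤ) := ⟨!![1, -1; 2, -1], by rw [Matrix.det_fin_two_of]; norm_num⟩

theorem ellTwo_sq : ellTwo * ellTwo = -1 := by
  ext i j
  rw [Matrix.SpecialLinearGroup.coe_mul, Matrix.mul_apply, Fin.sum_univ_two]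
  fin_cases i <;> fin_cases j <;> simp [ellTwo]

theorem slash_neg_one : etaTwo ∣[(8 : ℤ)] (-1 : SL(2, ℤ)) = etaTwo := by
  funext τ
  rw [ModularForm.SL_slash_apply, ModularGroup.denom_apply]
  simp
  norm_num

theorem slash_T : etaTwo ∣[(8 : ℤ)] ModularGroup.T = etaTwo := by
  funext τ
  rw [ModularForm.SL_slash_apply, ModularGroup.denom_apply, UpperHalfPlane.modular_T_smul]
  have h1 : qp 1 ((1 : ℝ) +ᵥ τ) = qp 1 τ := qp_one_add τ _ (by simp [add_comm])
  have h2 : qp 1 (scale 2 ((1 : ℝ) +ᵥ τ)) = qp 1 (scale 2 τ) := by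
    rw [qp_scale (n := 1) two_ne_zero, qp_scale (n := 1) two_ne_zero, h1]
  simp [etaTwo, h1, h2, ModularGroup.coe_T]

theorem slash_ellTwo : etaTwo ∣[(8 : ℤ)] ellTwo = etaTwo := by
  obtain ⟨χ, hχ, h⟩ := exists_multiplier (γ := ellTwo) (by simp [ellTwo])
  have h2 : (χ * χ) • etaTwo = etaTwo := by
    have e := SlashAction.slash_mul (8 : ℤ) ellTwo ellTwo etaTwo
    rw [ellTwo_sq, slash_neg_one, h, ModularForm.SL_smul_slash, h, smul_smul] at e
    exact e.symm
  have h3 := congrFun h2 UpperHalfPlane.I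
  rw [Pi.smul_apply, smul_eq_mul, mul_eq_right₀ (etaTwo_ne_zero _)] at h3
  have hχ1 : χ = 1 := by linear_combination hχ - χ * h3
  rw [h, hχ1, one_smul]

/-- The elements of `Γ₀(2)` fix the form. -/
theorem slash_eq_self : ∀ (n : ℕ) (γ : SL(2, ℤ)), (γ 1 0).natAbs ≤ n → (2 : ℤ) ∣ γ 1 0 →
    etaTwo ∣[(8 : ℤ)] γ = etaTwo := by
  have hTz : ∀ k : ℤ, etaTwo ∣[(8 : ℤ)] (ModularGroup.T ^ k : SL(2, ℤ)) = etaTwo := by
    intro k
    induction k with
    | zero => rw [zpow_zero, SlashAction.slash_one]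
    | succ k ih => rw [zpow_add_one, SlashAction.slash_mul, ih, slash_T]
    | pred k ih =>
      have hinv : etaTwo ∣[(8 : ℤ)] (ModularGroup.T⁻¹ : SL(2, ℤ)) = etaTwo := by
        have e := SlashAction.slash_mul (8 : ℤ) ModularGroup.T ModularGroup.T⁻¹ etaTwo
        rwa [mul_inv_cancel, SlashAction.slash_one, slash_T, eq_comm] at e
      rw [zpow_sub_one, SlashAction.slash_mul, ih, hinv]
  intro n
  induction n with
  | zero =>
    intro γ hn _
    have hc : γ 1 0 = 0 := Int.natAbs_eq_zero.1 (by omega)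
    have hdet := GoodModel.det_eq γ
    rw [hc, mul_zero, sub_zero] at hdet
    rcases Int.mul_eq_one_iff_eq_one_or_neg_one.1 hdet with ⟨ha, hd⟩ | ⟨ha, hd⟩
    · have e : γ = ModularGroup.T ^ (γ 0 1) := by
        ext i j
        fin_cases i <;> fin_cases j <;> simp [ModularGroup.coe_T_zpow, ha, hd, hc]
      rw [e, hTz]
    · have e : γ = -1 * ModularGroup.T ^ (-γ 0 1) := by
        ext i j
        fin_cases i <;> fin_cases j <;> simp [ModularGroup.coe_T_zpow, ha, hd, hc]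
      rw [e, SlashAction.slash_mul, slash_neg_one, hTz]
  | succ n ih =>
    intro γ hn h2
    by_cases hle : (γ 1 0).natAbs ≤ n
    · exact ih γ hle h2
    set c := γ 1 0 with hcdef
    have hc0 : c ≠ 0 := fun h => hle (by simp [h])
    obtain ⟨c', hc'⟩ := h2
    have hdet := GoodModel.det_eq γ
    rw [← hcdef] at hdet
    set k := if c < 0 then 1 - γ 0 0 / c else -(γ 0 0 / c) with hk
    set g := ellTwo * ModularGroup.T ^ k * γ with hg
    have hg10 : g 1 0 = 2 * (γ 0 0 + k * c) - c := by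
      rw [hg, Matrix.SpecialLinearGroup.coe_mul, Matrix.SpecialLinearGroup.coe_mul,
        Matrix.mul_apply, Fin.sum_univ_two, Matrix.mul_apply, Fin.sum_univ_two, Matrix.mul_apply,
        Fin.sum_univ_two, ModularGroup.coe_T_zpow]
      simp [ellTwo, ← hcdef]
      ring
    have ha : γ 0 0 + k * c = if c < 0 then γ 0 0 % c + c else γ 0 0 % c := by
      have := Int.emod_add_mul_ediv (γ 0 0) c
      rw [hk]
      split <;> linarith
    have hne : γ 0 0 % c ≠ 0 := by
      intro h0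
      obtain ⟨m, hm⟩ := Int.dvd_of_emod_eq_zero h0
      rw [hm, hc'] at hdet
      have : (2 : ℤ) ∣ 1 := ⟨c' * (m * γ 1 1 - γ 0 1), by linear_combination -hdet⟩
      norm_num at this
    have h0 := Int.emod_nonneg (γ 0 0) hc0
    have h1 : γ 0 0 % c < |c| := Int.emod_lt_abs _ hc0
    have hlt : (g 1 0).natAbs ≤ n := by
      rw [hg10, ha]
      rcases lt_or_gt_of_ne hc0 with hneg | hpos
      · rw [abs_of_neg hneg] at h1
        rw [if_pos hneg]
        omega
      · rw [abs_of_pos hpos] at h1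
        rw [if_neg (by omega)]
        omega
    have hg2 : (2 : ℤ) ∣ g 1 0 := ⟨γ 0 0 + k * c - c', by rw [hg10, hc']; ring⟩
    have e := ih g hlt hg2
    rw [hg, SlashAction.slash_mul, SlashAction.slash_mul, slash_ellTwo, hTz] at e
    exact e

theorem etaTwo_smul {γ : SL(2, ℤ)} (hγ : (2 : ℤ) ∣ γ 1 0) (τ : ℍ) :
    etaTwo (γ • τ) = denom γ (τ : ℂ) ^ 8 * etaTwo τ := by
  have h := congrFun (slash_eq_self _ γ le_rfl hγ) τ
  rw [ModularForm.SL_slash_apply] at h
  have hd : denom γ (τ : ℂ) ≠ 0 := UpperHalfPlane.denom_ne_zero (γ : GL (Fin 2) ℝ) τ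
  rw [zpow_neg, ← div_eq_mul_inv, div_eq_iff (zpow_ne_zero _ hd)] at h
  rw [h, zpow_ofNat]
  ring

end FLTAgent.ModLift.AtP
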