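import Fermat.Agent.ModLift.Interface
import Fermat.Agent.MazurPrinciple.Interface

/-!
# The removal of `p` for `p = 3, 5`: interface

The ramification data of a semistable peu ramifiée torsion module: wild data whose group fixes
the module.
-/

set_option autoImplicit false

noncomputable section

namespace FLTAgent.ModLift

open FLTAgent.MazurPrinciple (WildData)

local notation "QA" => AlgebraicClosure ℚ
local notation "GG" => (AlgebraicClosure ℚ ≃ₐ[ℚ] AlgebraicClosure ℚ)

/-- The ramification at `p` of a peu ramifiée torsion module of a semistable curve: wild data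
whose group fixes the module. -/
def TargetWildData : Prop :=
  ∀ (p : ℕ) [Fact p.Prime], p = 3 ∨ p = 5 →
    ∀ (W : WeierstrassCurve ℤ) (hΔ : W.Δ ≠ 0), W.IsSemistableModel →
    W.ModRepIsIrreducible p → (W.map (Int.castRingHom ℚ)).IsPeuRamifieeAt p p →
    ∀ (A : ValuationSubring QA) (hA : A.LiesOverPrime p) (ζ : QA), IsPrimitiveRoot ζ p →
      ∃ (G : Subgroup GG) (σ₀ : GG), WildData hA ζ G σ₀ ∧
        ∀ τ ∈ G, (LevelMatch.resW W hΔ p).ρ τ = LinearMap.id

end FLTAgent.ModLift
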