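import Fermat.Agent.Entry.Assembly.Occur
import Fermat.Agent.Entry.Other.Oldform

/-!
# Residual modularity at a multiple of the level, and ramification outside the level

A residually modular representation stays so at every multiple of the level, and, having full
image, it is unramified at the primes prime to the level and to `p`.
-/

set_option autoImplicit false
set_option linter.style.haveILetI false
set_option linter.unusedSectionVars false
set_option synthInstance.maxHeartbeats 400000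
set_option maxHeartbeats 1000000

noncomputable section

open scoped Classical

namespace FLTAgent.ModLift.AtP

open FLTAgent.TWPrimes.Res (matHom val_matHom)
open FLTAgent.LevelMatch (resW)
open FLTAgent.Lowering.P7 (Seen)

local notation "QA" => AlgebraicClosure ℚ
local notation "GG" => (AlgebraicClosure ℚ ≃ₐ[ℚ] AlgebraicClosure ℚ)
local notation "ZZbar" => integralClosure ℤ ℂ

variable (W : WeierstrassCurve ℤ) (hΔ : W.Δ ≠ 0) (hW : W.IsSemistableModel) (p : ℕ)
  [hp : Fact p.Prime] (hp35 : p = 3 ∨ p = 5) (hirr : W.ModRepIsIrreducible p)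

include hΔ hW hp35 hirr in
/-- Residual modularity passes to the multiples of the level. -/
theorem resMod_of_dvd {M M' : ℕ} (hMM : M ∣ M') (hM' : M' ≠ 0)
    (h : W.IsResiduallyModularOfLevel p M) : W.IsResiduallyModularOfLevel p M' := by
  haveI : NeZero M' := ⟨hM'⟩
  haveI : NeZero M := ⟨fun e => hM' (zero_dvd_iff.1 (e ▸ hMM))⟩
  set bad : Finset ℕ := insert p (M'.primeFactors ∪ W.Δ.natAbs.primeFactors) with hbad
  have hpb : p ∈ bad := Finset.mem_insert_self _ _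
  have hbM : ∀ r : ℕ, r.Prime → r ∣ M' → r ∈ bad := fun r hr h =>
    Finset.mem_insert_of_mem (Finset.mem_union_left _ (Nat.mem_primeFactors.mpr ⟨hr, h, hM'⟩))
  have hbD : ∀ r : ℕ, r.Prime → (r : ℤ) ∣ W.Δ → r ∈ bad := fun r hr h =>
    Finset.mem_insert_of_mem (Finset.mem_union_right _
      (Nat.mem_primeFactors.mpr ⟨hr, Int.natCast_dvd.mp h, Int.natAbs_ne_zero.mpr hΔ⟩))
  refine Entry.resMod_of_seen W hΔ hW p hp35 hirr hpb hbM hbD ?_
  obtain ⟨f, 𝔪, hf, h𝔪, hp𝔪, hcong⟩ := h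
  haveI : CharP (ZZbar ⧸ 𝔪) p := (CharP.charP_iff_prime_eq_zero hp.out).mpr (by
    rw [← map_natCast (Ideal.Quotient.mk 𝔪)]; exact Ideal.Quotient.eq_zero_iff_mem.2 hp𝔪)
  haveI : Nontrivial (ZZbar ⧸ 𝔪) := Ideal.Quotient.nontrivial_iff.2 h𝔪.ne_top
  set κ : ZMod p →+* ZZbar ⧸ 𝔪 := ZMod.castHom dvd_rfl _
  obtain ⟨ψ₀, hψ₀⟩ := Entry.Other.exists_old_character hMM hf (↑bad : Set ℕ) hbM
  haveI := CuspForms.moduleFinite_heckeAlgebra M' 2 (↑bad : Set ℕ)
  let ψ₁ : CuspForm.heckeAlgebra M' 2 (↑bad : Set ℕ) →+* ZZbar :=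
    ψ₀.codRestrict (integralClosure ℤ ℂ).toSubring fun t =>
      (Algebra.IsIntegral.isIntegral (R := ℤ) t).map ψ₀.toIntAlgHom
  set ψ := (Ideal.Quotient.mk 𝔪).comp ψ₁
  have hT : ∀ (l : ℕ) (hl : l.Prime) (hlM : ¬ l ∣ M') (hlb : l ∉ (↑bad : Set ℕ)),
      ψ (CuspForm.heckeAlgebra.T hl hlM hlb) = κ (W.apOfModel l) := by
    intro l hl hlM hlb
    obtain ⟨a, ha, hmem⟩ := hcong l hl (fun hd => hlb (hbD l hl hd))
      (fun e => hlM (e.trans hMM)) (fun e => hlb (e ▸ hpb))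
    rw [map_intCast, RingHom.comp_apply,
      show ψ₁ (CuspForm.heckeAlgebra.T hl hlM hlb) = a from
        Subtype.ext ((hψ₀ l hl hlM hlb).trans ha.symm),
      Ideal.Quotient.eq.2 hmem, map_intCast]
  have hmem : ∀ t, ψ t ∈ κ.range := by
    rintro ⟨t, ht⟩
    induction ht using Algebra.adjoin_induction with
    | mem x hx =>
      rcases hx with ⟨l, hl, hlM, hlb, rfl⟩ | ⟨q, hqM, hq, hqb, rfl⟩
      · exact ⟨_, (hT l hl hlM hlb).symm⟩
      · exact absurd (hbM q hq hqM) hqb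
    | algebraMap c =>
      refine ⟨(c : ZMod p), ?_⟩
      have e : (⟨algebraMap ℤ _ c, Subalgebra.algebraMap_mem _ c⟩ :
          CuspForm.heckeAlgebra M' 2 (↑bad : Set ℕ)) =
          (c : CuspForm.heckeAlgebra M' 2 (↑bad : Set ℕ)) := Subtype.ext (by simp)
      exact ((congrArg ψ e).trans ((map_intCast ψ c).trans (map_intCast κ c).symm)).symm
    | add x y hx hy ih ih' =>
      exact (map_add ψ ⟨x, hx⟩ ⟨y, hy⟩).symm ▸ add_mem ih ih'
    | mul x y hx hy ih ih' =>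
      exact (map_mul ψ ⟨x, hx⟩ ⟨y, hy⟩).symm ▸ mul_mem ih ih'
  let e : ZMod p ≃+* κ.range := RingEquiv.ofBijective κ.rangeRestrict
    ⟨fun a b hab => κ.injective (congrArg Subtype.val hab), κ.rangeRestrict_surjective⟩
  refine ⟨inferInstance, e.symm.toRingHom.comp (ψ.codRestrict κ.range hmem),
    fun l hl hlM hlb V hV σ hσ => e.injective (Subtype.ext ?_)⟩
  rw [RingHom.comp_apply, RingEquiv.toRingHom_eq_coe, RingEquiv.coe_toRingHom, e.apply_symm_apply]
  show ψ _ = κ _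
  rw [hT l hl hlM hlb, (Entry.frobenius_sysOf W hΔ hW p hp35 hirr hpb hl
    (fun hd => hlb (hbD l hl hd)) (fun e => hlb (e ▸ hpb)) hV hσ).1]

include hW hp35 hirr in
/-- Residual modularity at a level prime to `q` makes `q` unramified. -/
theorem isUnramifiedAt_of_resMod {M q : ℕ} [NeZero M] (hq : q.Prime) (hqM : ¬ q ∣ M) (hqp : q ≠ p)
    (h : W.IsResiduallyModularOfLevel p M) : (resW W hΔ p).IsUnramifiedAt q := by
  obtain ⟨f, 𝔪, hf, h𝔪, hp𝔪, hcong⟩ := h
  haveI := h𝔪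
  letI : Field (ZZbar ⧸ 𝔪) := Ideal.Quotient.field 𝔪
  haveI : CharP (ZZbar ⧸ 𝔪) p := (CharP.charP_iff_prime_eq_zero hp.out).mpr (by
    rw [← map_natCast (Ideal.Quotient.mk 𝔪)]; exact Ideal.Quotient.eq_zero_iff_mem.2 hp𝔪)
  set κ : ZMod p →+* ZZbar ⧸ 𝔪 := ZMod.castHom dvd_rfl _
  set bad : Finset ℕ := insert p (M.primeFactors ∪ W.Δ.natAbs.primeFactors) with hbad
  have hpb : p ∈ bad := Finset.mem_insert_self _ _
  set S := Entry.sysOf W hΔ hW p hp35 hirr bad hpb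
  obtain ⟨rg, ⟨L₁, hL₁, hfix₁⟩, hunr, hfrob⟩ :=
    EigenReps.exists_residual hf (p := p) (Ideal.Quotient.mk 𝔪)
  obtain ⟨L₂, hL₂, hfix₂⟩ := S.level
  haveI := hL₁; haveI := hL₂
  set rc : GG →* Matrix (Fin 2) (Fin 2) (ZZbar ⧸ 𝔪) :=
    κ.mapMatrix.toMonoidHom.comp ((Units.coeHom _).comp S.rb) with hrc
  have hrctr : ∀ σ, (rc σ).trace = κ (S.tr σ) := fun σ => by
    show ((S.rb σ : Matrix (Fin 2) (Fin 2) (ZMod p)).map κ).trace = _
    rw [Matrix.trace_fin_two, Entry.Sys.tr, Matrix.trace_fin_two, map_add]; rfl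
  have hrcdet : ∀ σ, (rc σ).det = κ (Matrix.det (S.rb σ : Matrix (Fin 2) (Fin 2) (ZMod p))) :=
    fun σ => (κ.map_det _).symm
  have hchar : ∀ σ, (rg σ).charpoly = (rc σ).charpoly := by
    refine Frobenius.charpoly_eq_of_frobenius_matrix rg rc (L₁ ⊔ L₂) (fun σ hσ => ⟨hfix₁ σ
      (fun x hx => hσ x ((le_sup_left : L₁ ≤ L₁ ⊔ L₂) hx)), ?_⟩) bad fun ℓ hℓ hℓb V hV τ hτ => ?_
    · rw [hrc, MonoidHom.comp_apply, MonoidHom.comp_apply,
        hfix₂ σ (fun x hx => hσ x ((le_sup_right : L₂ ≤ L₁ ⊔ L₂) hx))]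
      simp
    · have hℓp : ℓ ≠ p := fun e => hℓb (e ▸ hpb)
      have hℓM : ¬ ℓ ∣ M := fun e => hℓb (Finset.mem_insert_of_mem (Finset.mem_union_left _
        (Nat.mem_primeFactors.mpr ⟨hℓ, e, NeZero.ne M⟩)))
      have hgood : W.IsGoodPrimeFor ℓ := fun hd => hℓb (Finset.mem_insert_of_mem
        (Finset.mem_union_right _ (Nat.mem_primeFactors.mpr
          ⟨hℓ, Int.natCast_dvd.mp hd, Int.natAbs_ne_zero.mpr hΔ⟩)))
      obtain ⟨a, ha, ht, hd⟩ := hfrob ℓ hℓ hℓM hℓp V hV τ hτ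
      obtain ⟨hSt, hSd⟩ := Entry.frobenius_sysOf W hΔ hW p hp35 hirr hpb hℓ hgood hℓp hV hτ
      obtain ⟨b, hb, hmem⟩ := hcong ℓ hℓ hgood hℓM hℓp
      have htr : Ideal.Quotient.mk 𝔪 a = κ (S.tr τ) := by
        rw [show a = b from Subtype.ext (ha.trans hb.symm), hSt, Ideal.Quotient.eq.2 hmem,
          map_intCast, map_intCast]
      rw [Matrix.charpoly_fin_two, Matrix.charpoly_fin_two, ht, hd, hrctr, hrcdet, htr, hSd,
        map_natCast κ]
  have htrace : ∀ σ, (rg σ).trace = κ (S.tr σ) := fun σ => by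
    rw [← hrctr, Matrix.trace_eq_neg_charpoly_coeff, Matrix.trace_eq_neg_charpoly_coeff, hchar]
  intro V hV σ hσ
  have hone : rg σ = 1 := hunr q hq hqM hqp V hV σ hσ
  -- the traces of `σ g` and of `g` agree, so `σ` is trivial
  have hsame : ∀ A : GL (Fin 2) (ZMod p),
      ((S.rb σ : Matrix (Fin 2) (Fin 2) (ZMod p)) * (A : Matrix (Fin 2) (Fin 2) (ZMod p))).trace =
        (A : Matrix (Fin 2) (Fin 2) (ZMod p)).trace := by
    intro A
    obtain ⟨g, hg⟩ := image_matHom_surjective W hΔ hW p hp35 hirr (stdBasis W hΔ p) A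
    have hg' : S.rb g = A := hg
    have h1 := htrace (σ * g)
    rw [map_mul, hone, one_mul, htrace] at h1
    have h2 := κ.injective h1
    rw [Entry.Sys.tr, Entry.Sys.tr, map_mul, Units.val_mul, hg'] at h2
    exact h2.symm
  have h20 : (2 : ZMod p) ≠ 0 := fun h => by
    have h' : ((2 : ℕ) : ZMod p) = 0 := by exact_mod_cast h
    have := Nat.le_of_dvd two_pos ((ZMod.natCast_eq_zero_iff 2 p).1 h')
    omega
  let u : GL (Fin 2) (ZMod p) :=
    ⟨!![1, 1; 0, 1], !![1, -1; 0, 1], by simp [Matrix.one_fin_two], by simp [Matrix.one_fin_two]⟩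
  let v : GL (Fin 2) (ZMod p) :=
    ⟨!![1, 0; 1, 1], !![1, 0; -1, 1], by simp [Matrix.one_fin_two], by simp [Matrix.one_fin_two]⟩
  let w : GL (Fin 2) (ZMod p) :=
    ⟨!![2, 0; 0, 1], !![2⁻¹, 0; 0, 1], by simp [Matrix.one_fin_two, h20],
      by simp [Matrix.one_fin_two, h20]⟩
  have e1 := hsame 1
  have eu := hsame u
  have ev := hsame v
  have ew := hsame w
  set B : Matrix (Fin 2) (Fin 2) (ZMod p) :=
    (S.rb σ : Matrix (Fin 2) (Fin 2) (ZMod p)) with hB
  simp [u, v, w, Matrix.trace_fin_two, Matrix.mul_apply, Fin.sum_univ_two] at e1 eu ev ew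
  have hrb : B = 1 := by
    ext i j
    fin_cases i <;> fin_cases j <;> simp
    · linear_combination ew - e1
    · linear_combination ev - e1
    · linear_combination eu - e1
    · linear_combination 2 * e1 - ew
  refine (LinearMap.toMatrix (stdBasis W hΔ p) (stdBasis W hΔ p)).injective ?_
  rw [LinearMap.toMatrix_one]
  exact hrb

end FLTAgent.ModLift.AtP
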