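import Fermat.Agent.ModLift.AtP.Measure
import Fermat.Agent.ModLift.LowerAway.Principle
import Fermat.Agent.MazurPrinciple.GlobalResidual
import Fermat.Agent.MazurPrinciple.Core
import Fermat.Agent.Ordinary.Main

/-!
# A system seen at a level exactly divisible by `p` and not below

If the kernel of the system contains the group of some wild data, inertia at `p` acts on a
stable part of the eigenspace through the cyclotomic character, against full image.
-/

set_option autoImplicit false
set_option linter.style.haveILetI false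
set_option linter.unusedSectionVars false
set_option synthInstance.maxHeartbeats 400000
set_option maxHeartbeats 1000000

noncomputable section

open AlgebraicCurve ModularCurve IsLocalRing

namespace FLTAgent.ModLift.AtP

open FLTAgent.EigenLattice (pushPic GoodIdx evalGood Ix alpha_compat beta_compat)
open FLTAgent.MazurPrinciple
open FLTAgent.Lowering.P7 (Seen exists_killed eigenSpace_ne_bot_of_char finrank_two)
open FLTAgent.ModLift.LowerAway (HasTraces exists_stable_kerFixed exists_good_not_eisenstein)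

local notation "QA" => AlgebraicClosure ℚ
local notation "GG" => (AlgebraicClosure ℚ ≃ₐ[ℚ] AlgebraicClosure ℚ)

/-- The measuring functions in the whole range. -/
theorem exists_measure_range {p M : ℕ} [Fact p.Prime] [NeZero p] [NeZero M] [NeZero (M * p)]
    (h : InRange p M) (hpM : ¬ p ∣ M) {A : ValuationSubring QA} [IsAlgClosed (ResidueField A)]
    [CharP (ResidueField A) p]
    [Curves.IsFunctionField (ResidueField A) (modularFunctionFieldFullC (ResidueField A) M)]
    (hA : A.LiesOverPrime p) : Nonempty (Measure hpM hA) := by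
  rcases h with h5 | ⟨rfl, h2⟩
  · exact exists_measure hpM hA h5
  · exact exists_measure_three hpM h2 hA

/-- The representation of a system with full image has no line. -/
theorem eq_bot_or_eq_top_of_surjective {p : ℕ} [Fact p.Prime] (S : Entry.Sys p)
    (hsur : Function.Surjective S.rb) (L : Submodule (ZMod p) (Fin 2 → ZMod p))
    (hL : ∀ g, ∀ x ∈ L, S.rho g x ∈ L) : L = ⊥ ∨ L = ⊤ := by
  classical
  by_cases hbot : L = ⊥
  · exact Or.inl hbot
  right
  obtain ⟨x, hx, hx0⟩ := (Submodule.ne_bot_iff _).1 hbot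
  have hmat : ∀ (A : GL (Fin 2) (ZMod p)) (y : Fin 2 → ZMod p), y ∈ L →
      Matrix.mulVec (A : Matrix (Fin 2) (Fin 2) (ZMod p)) y ∈ L := by
    intro A y hy
    obtain ⟨g, rfl⟩ := hsur A
    simpa [Entry.Sys.rho_apply] using hL g y hy
  let u : GL (Fin 2) (ZMod p) :=
    ⟨!![1, 1; 0, 1], !![1, -1; 0, 1], by simp [Matrix.one_fin_two], by simp [Matrix.one_fin_two]⟩
  let w : GL (Fin 2) (ZMod p) :=
    ⟨!![0, 1; 1, 0], !![0, 1; 1, 0], by simp [Matrix.one_fin_two], by simp [Matrix.one_fin_two]⟩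
  have hsub : ∀ y ∈ L, ![y 1, 0] ∈ L := fun y hy => by
    have h := L.sub_mem (hmat u y hy) hy
    convert h using 1
    funext i
    fin_cases i <;> simp [u, Matrix.vecHead, Matrix.vecTail]
  have e0 : (![1, 0] : Fin 2 → ZMod p) ∈ L := by
    by_cases h1 : x 1 = 0
    · have h0 : x 0 ≠ 0 := fun h0 => hx0 (by funext i; fin_cases i <;> simp [h0, h1])
      have h := L.smul_mem (x 0)⁻¹ hx
      convert h using 1
      funext i
      fin_cases i <;> simp [h0, h1]
    · have h := L.smul_mem (x 1)⁻¹ (hsub x hx)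
      convert h using 1
      funext i
      fin_cases i <;> simp [h1]
  have e1 : (![0, 1] : Fin 2 → ZMod p) ∈ L := by
    have h := hmat w _ e0
    convert h using 1
    funext i
    fin_cases i <;> simp [w]
  refine eq_top_iff.2 fun y _ => ?_
  have h := L.add_mem (L.smul_mem (y 0) e0) (L.smul_mem (y 1) e1)
  convert h using 1
  funext i
  fin_cases i <;> simp

/-- The kernel of a system with full image cannot contain the group of wild data at `p` when the
system is seen at level `M * p` and not at level `M`. -/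
theorem false_of_wild {p : ℕ} [Fact p.Prime] [NeZero p] (S : Entry.Sys p)
    (hsur : Function.Surjective S.rb) {M : ℕ} (hr : InRange p M) (hpM : ¬ p ∣ M)
    (hbad : ∀ l : ℕ, l.Prime → l ∣ M * p → l ∈ S.bad)
    (hwd : ∀ (A : ValuationSubring QA) (hA : A.LiesOverPrime p) (ζ : QA), IsPrimitiveRoot ζ p →
      ∃ (G : Subgroup GG) (σ₀ : GG), WildData hA ζ G σ₀ ∧ ∀ τ ∈ G, S.rb τ = 1)
    (hseen : Seen (M * p) S.bad S.tr) (hns : ¬ Seen M S.bad S.tr) : False := by
  classical
  obtain ⟨hN0, θ, hθ⟩ := hseen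
  haveI := hN0
  haveI : NeZero M := ⟨left_ne_zero_of_mul (NeZero.ne (M * p))⟩
  have hp : p.Prime := Fact.out
  set a : ℕ → ℤ := fun l =>
    if h : l.Prime ∧ ¬ l ∣ M * p ∧ l ∉ (↑S.bad : Set ℕ) then
      ((θ (CuspForm.heckeAlgebra.T h.1 h.2.1 h.2.2)).val : ℤ) else 0
  have haT : ∀ (l : ℕ) (hl : l.Prime) (hlN : ¬ l ∣ M * p) (hlb : l ∉ (↑S.bad : Set ℕ)),
      θ (CuspForm.heckeAlgebra.T hl hlN hlb) = (a l : ZMod p) := fun l hl hlN hlb => by
    simp only [a, dif_pos (show l.Prime ∧ ¬ l ∣ M * p ∧ l ∉ (↑S.bad : Set ℕ) from ⟨hl, hlN, hlb⟩),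
      Int.cast_natCast, ZMod.natCast_zmod_val]
  have hE : HasTraces S (M * p) a := fun l hl hlN hlb A hA τ hτ =>
    (hθ l hl hlN (fun h => hlb (Finset.mem_coe.1 h)) A hA τ hτ).symm.trans (haT l hl hlN _)
  obtain ⟨P, hP0, hPa⟩ := exists_killed (p := p) (a := a) (dvd_mul_right M p) hbad
    (fun l hl hlN hlb V hV σ hσ => hE l hl hlN hlb V hV σ hσ) hns
  have h0 := eigenSpace_ne_bot_of_char θ haT
  set κ := FLTAgent.Kronecker.complexEmb
  obtain ⟨W, hW0, hWst, hWfix⟩ := exists_stable_kerFixed S κ hE h0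
  obtain ⟨l, hl, hlN, hlS, hla⟩ := exists_good_not_eisenstein S hE hr.ne_two hsur
  obtain ⟨ζ, hζ⟩ := Reducible.exists_primitiveRoot p
  obtain ⟨A, hA⟩ := Frobenius.exists_liesOverPrime p hp
  obtain ⟨G, σ₀, hwild, hG⟩ := hwd A hA ζ hζ
  obtain ⟨σ, hσ, hσζ⟩ := Ordinary.exists_inertia_move_odd hr.three_le hA hζ
  set d : ZMod p := Matrix.det (S.rb σ : Matrix (Fin 2) (Fin 2) (ZMod p)) with hd
  have hσd : σ ζ = ζ ^ d.val := S.det_cyclo σ ζ hζ.pow_eq_one
  have hd1 : d ≠ 1 := fun h => hσζ (by rw [hσd, h, ZMod.val_one, pow_one])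
  have hd0 : d ≠ 0 := by
    rw [hd]
    exact ((S.rb σ).isUnit.map (Matrix.detMonoidHom (n := Fin 2) (R := ZMod p))).ne_zero
  have hl' : ¬ (p : ℤ) ∣ a l - (l + 1) := fun h => hla (by
    have := (ZMod.intCast_zmod_eq_zero_iff_dvd _ _).2 h
    push_cast at this
    exact this)
  -- `σ` multiplies the stable part by `d`
  have hW : ∀ w ∈ W, eigenSpaceRep (M * p) κ p S.bad a σ w = d • w := by
    intro w hw
    have hfix : ∀ τ ∈ G, τ • classOf (M * p) κ p w.1 = classOf (M * p) κ p w.1 := fun τ hτ => by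
      rw [smul_classOf, ← coe_eigenSpaceRep, hWfix τ (hG τ hτ) w hw]
    have h := core_of_measure hr hpM hA (fun {_} {_} {_} => exists_measure_range hr hpM hA) hζ
      hwild S.bad a ⟨l, hl, hlN, hlS, hl'⟩ (noResidualSystem hA M S.bad a hr hpM P hP0 hPa)
      (classOf (M * p) κ p w.1) (nsmul_classOf _ _ _ _) hfix
      (pushPic_classOf κ p S.bad a _ (fun σ x => alpha_compat M p σ x) S.p_mem P hP0 hPa w.2)
      (pushPic_classOf κ p S.bad a _ (fun σ x => beta_compat M p σ x) S.p_mem P hP0 hPa w.2)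
      (fun l _ hl hlN hlS => hecke_classOf (M * p) κ p S.bad a w.2 l hl hlN hlS) hσ hσd
    rw [smul_classOf, ← coe_eigenSpaceRep, ← classOf_smul, ZMod.natCast_zmod_val] at h
    exact Subtype.ext (classOf_injective _ _ _ h)
  have hrel : ∀ g, eigenSpaceRep (M * p) κ p S.bad a g * eigenSpaceRep (M * p) κ p S.bad a g -
      LinearMap.trace (ZMod p) (Fin 2 → ZMod p) (S.rho g) • eigenSpaceRep (M * p) κ p S.bad a g +
      LinearMap.det (S.rho g) • 1 = 0 := fun g => by
    rw [S.trace_rho, S.det_rho]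
    exact S.eigen_relation κ hE g
  obtain ⟨w, hw, hw0⟩ := (Submodule.ne_bot_iff _).1 hW0
  -- `d` is an eigenvalue of `σ`
  have hdet : LinearMap.det (S.rho σ - d • 1) = 0 := by
    have h1 := LinearMap.congr_fun (hrel σ) w
    simp only [LinearMap.add_apply, LinearMap.sub_apply, Module.End.mul_apply,
      LinearMap.smul_apply, Module.End.one_apply, LinearMap.zero_apply, hW w hw, map_smul,
      smul_smul, S.det_rho, S.trace_rho, ← hd] at h1
    rw [← sub_smul, ← add_smul] at h1
    have h2 := (smul_eq_zero.1 h1).resolve_right hw0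
    rw [Entry.Sys.tr, Matrix.trace_fin_two] at h2
    rw [Entry.Sys.rho_apply,
      show (1 : Module.End (ZMod p) (Fin 2 → ZMod p)) =
        Matrix.toLin' (1 : Matrix (Fin 2) (Fin 2) (ZMod p)) from Matrix.toLin'_one.symm,
      ← map_smul, ← map_sub, LinearMap.det_toLin', Matrix.det_fin_two]
    have hd2 : d = (S.rb σ : Matrix (Fin 2) (Fin 2) (ZMod p)) 0 0 *
        (S.rb σ : Matrix (Fin 2) (Fin 2) (ZMod p)) 1 1 -
        (S.rb σ : Matrix (Fin 2) (Fin 2) (ZMod p)) 0 1 *
        (S.rb σ : Matrix (Fin 2) (Fin 2) (ZMod p)) 1 0 := by rw [hd, Matrix.det_fin_two]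
    simp only [Matrix.sub_apply, Matrix.smul_apply, Matrix.one_apply_eq, ne_eq, Fin.reduceEq,
      not_false_eq_true, Matrix.one_apply_ne, smul_zero, sub_zero, smul_eq_mul, mul_one]
    linear_combination h2 - hd2
  obtain ⟨R, hR, hR0⟩ := (Submodule.ne_bot_iff _).1
    (bot_lt_iff_ne_bot.1 (LinearMap.bot_lt_ker_of_det_eq_zero hdet))
  rw [LinearMap.mem_ker, LinearMap.sub_apply, LinearMap.smul_apply, Module.End.one_apply,
    sub_eq_zero] at hR
  -- but `σ` is not the scalar `d`
  by_cases hT : ∀ T, S.rho σ T = d • T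
  · have h2 : LinearMap.det (S.rho σ) = d ^ 2 := by
      rw [show S.rho σ = d • LinearMap.id from LinearMap.ext hT, LinearMap.det_smul, finrank_two,
        LinearMap.det_id, mul_one]
    rw [S.det_rho, ← hd, pow_two] at h2
    exact hd1 (mul_left_cancel₀ hd0 (by rw [mul_one]; exact h2.symm))
  push Not at hT
  obtain ⟨T, hT⟩ := hT
  exact false_of_scalar finrank_two S.rho (eq_bot_or_eq_top_of_surjective S hsur)
    (eigenSpaceRep (M * p) κ p S.bad a) hrel W hWst hW0 (σ := σ) hW hR0 hR hT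

end FLTAgent.ModLift.AtP
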