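import Fermat.Agent.ModLift.AtP.Interface
import Fermat.Agent.ModLift.AtP.System
import Fermat.Agent.ModLift.AtP.Level

/-!
# The removal of `p`

At an even level, or at `p = 5`, a system seen at `M * p` and not at `M` contradicts the wild
data. For `p = 3` and odd `M` the prime `2` is added and removed again: `2` is unramified and not
congruent to one modulo three.
-/

set_option autoImplicit false
set_option linter.style.haveILetI false
set_option linter.unusedSectionVars false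

noncomputable section

namespace FLTAgent.ModLift

open FLTAgent.MazurPrinciple (InRange)
open FLTAgent.Lowering.P7 (Seen)

namespace AtP

/-- The removal of `p` in the range of the principle. -/
theorem lower_range (hwd : TargetWildData) {p : ℕ} [Fact p.Prime] (hp35 : p = 3 ∨ p = 5)
    (W : WeierstrassCurve ℤ) (hΔ : W.Δ ≠ 0) (hW : W.IsSemistableModel)
    (hirr : W.ModRepIsIrreducible p) (hpeu : (W.map (Int.castRingHom ℚ)).IsPeuRamifieeAt p p)
    {M : ℕ} (hM : M ≠ 0) (hr : InRange p M) (hpM : ¬ p ∣ M)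
    (hres : W.IsResiduallyModularOfLevel p (M * p)) : W.IsResiduallyModularOfLevel p M := by
  classical
  haveI : NeZero p := ⟨(Fact.out : p.Prime).ne_zero⟩
  have hN0 : M * p ≠ 0 := mul_ne_zero hM (NeZero.ne p)
  haveI : NeZero (M * p) := ⟨hN0⟩
  set bad : Finset ℕ := insert p ((M * p).primeFactors ∪ W.Δ.natAbs.primeFactors) with hbad
  have hpb : p ∈ bad := Finset.mem_insert_self _ _
  have hbM : ∀ r : ℕ, r.Prime → r ∣ M * p → r ∈ bad := fun r hr h =>
    Finset.mem_insert_of_mem (Finset.mem_union_left _ (Nat.mem_primeFactors.mpr ⟨hr, h, hN0⟩))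
  have hbD : ∀ r : ℕ, r.Prime → (r : ℤ) ∣ W.Δ → r ∈ bad := fun r hr h =>
    Finset.mem_insert_of_mem (Finset.mem_union_right _
      (Nat.mem_primeFactors.mpr ⟨hr, Int.natCast_dvd.mp h, Int.natAbs_ne_zero.mpr hΔ⟩))
  set S := Entry.sysOf W hΔ hW p hp35 hirr bad hpb
  have hseen : Seen (M * p) S.bad S.tr :=
    Entry.seen_of_resMod W hΔ hW p hp35 hirr hpb hbM hbD hres
  refine Entry.resMod_of_seen W hΔ hW p hp35 hirr hpb
    (fun r hr h => hbM r hr (dvd_mul_of_dvd_left h p)) hbD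
    (Classical.byContradiction fun hno => ?_)
  refine false_of_wild S (image_matHom_surjective W hΔ hW p hp35 hirr (stdBasis W hΔ p)) hr hpM
    hbM (fun A hA ζ hζ => ?_) hseen hno
  obtain ⟨G, σ₀, h1, h2⟩ := hwd p hp35 W hΔ hW hirr hpeu A hA ζ hζ
  exact ⟨G, σ₀, h1, fun τ hτ => TWPrimes.Res.matHom_eq_one _ _ (h2 τ hτ)⟩

end AtP

/-- **The removal of `p` from a squarefree level.** -/
theorem targetLowerAtP_of (hwd : TargetWildData) (haway : TargetLowerAway) : TargetLowerAtP := by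
  intro p hp35 W hΔ hW hirr hpeu N hsq hpN hres
  haveI : Fact p.Prime := ⟨by rcases hp35 with rfl | rfl <;> norm_num⟩
  obtain ⟨M, rfl⟩ : ∃ M, N = M * p := ⟨N / p, (Nat.div_mul_cancel hpN).symm⟩
  rw [Nat.mul_div_cancel _ (Fact.out : p.Prime).pos]
  have hM0 : M ≠ 0 := left_ne_zero_of_mul hsq.ne_zero
  have hpM : ¬ p ∣ M := fun h =>
    (Fact.out : p.Prime).not_isUnit (hsq p (Nat.mul_dvd_mul_right h p))
  by_cases hr : InRange p M
  · exact AtP.lower_range hwd hp35 W hΔ hW hirr hpeu hM0 hr hpM hres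
  -- `p = 3` and `M` is odd
  obtain ⟨rfl, h2M⟩ : p = 3 ∧ ¬ 2 ∣ M := by
    rcases hp35 with rfl | rfl
    · exact ⟨rfl, fun h => hr (.inr ⟨rfl, h⟩)⟩
    · exact absurd (.inl le_rfl) hr
  haveI : NeZero (M * 3) := ⟨hsq.ne_zero⟩
  have h2N : ¬ 2 ∣ M * 3 := by omega
  have h3 : ¬ 3 ∣ M * 2 := by omega
  have hun : (LevelMatch.resW W hΔ 3).IsUnramifiedAt 2 :=
    AtP.isUnramifiedAt_of_resMod W hΔ hW 3 hp35 hirr Nat.prime_two h2N (by norm_num) hres
  have hup : W.IsResiduallyModularOfLevel 3 (M * 2 * 3) :=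
    AtP.resMod_of_dvd W hΔ hW 3 hp35 hirr ⟨2, by ring⟩
      (mul_ne_zero (mul_ne_zero hM0 two_ne_zero) (by norm_num)) hres
  have hlow := AtP.lower_range hwd hp35 W hΔ hW hirr hpeu (mul_ne_zero hM0 two_ne_zero)
    (.inr ⟨rfl, dvd_mul_left 2 M⟩) h3 hup
  have hsq2 : Squarefree (M * 2) :=
    (Nat.squarefree_mul ((Nat.prime_two.coprime_iff_not_dvd.2 h2M).symm)).2
      ⟨hsq.squarefree_of_dvd (dvd_mul_right M 3), Nat.prime_two.squarefree⟩
  have h := haway 3 hp35 W hΔ hW hirr (M * 2) 2 hsq2 Nat.prime_two (by norm_num)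
    (dvd_mul_left 2 M) hun (fun hs => absurd hs.1 (by norm_num)) hlow
  rwa [Nat.mul_div_cancel _ (by norm_num : 0 < 2)] at h

end FLTAgent.ModLift
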