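import Fermat.Agent.ModLift.AtP.Unit6
import Fermat.Agent.MazurPrinciple.PowerResidues

/-!
# The measuring functions at three for even level

`φ ^ 3 = u(τ) u(2τ)` and the product of `φ` with its mirror image is `3 ^ 8`. In characteristic
three the reduction of `u(2τ)` is that of `u(τ)` times the square of the unit of level two, so the
divisor of the reduction of `φ` is two thirds of that of the reduction of `u` away from the cusps.
-/

set_option autoImplicit false
set_option linter.style.haveILetI false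
set_option linter.unusedSectionVars false
set_option synthInstance.maxHeartbeats 400000
set_option maxHeartbeats 1000000

noncomputable section

open AlgebraicCurve ModularCurve IsLocalRing

namespace FLTAgent.ModLift.AtP

open FLTAgent.Curves FLTAgent.Specialization FLTAgent.BadRed FLTAgent.MazurPrinciple
open FLTAgent.ModEq (deltaSer deltaInvSer evalAt)
open FLTAgent.X0Fn (jF)

local notation "QA" => AlgebraicClosure ℚ
local notation "GG" => (AlgebraicClosure ℚ ≃ₐ[ℚ] AlgebraicClosure ℚ)

variable {M : ℕ} [NeZero M] [NeZero (M * 3)] (hpM : ¬ 3 ∣ M) (h2 : 2 ∣ M)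

theorem six_dvd {N : ℕ} (h2 : 2 ∣ N) : 3 * 2 ∣ N * 3 := by
  rw [mul_comm N 3]; exact Nat.mul_dvd_mul_left 3 h2

/-- The doubling map from level three. -/
def double : X0Bar 3 →ₐ[QA] X0Bar (M * 3) :=
  (IntermediateField.inclusion (X0Bar_mono (six_dvd h2))).comp (heckeBetaBar QA 3 2)

theorem coe_double (z : X0Bar 3) :
    (double h2 z : LaurentSeries QA) = qExpand QA 2 (z : LaurentSeries QA) := by
  rw [double, AlgHom.comp_apply, IntermediateField.coe_inclusion, coe_heckeBetaBar]

/-- The mirror image commutes with the doubling. -/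
theorem swap_double (z : X0Bar 3) :
    (swapEnd hpM (double h2 z) : LaurentSeries QA) =
      qExpand QA 2 (swapEnd hpM (inclLevel (M := M) z) : LaurentSeries QA) := by
  let φ : X0Bar 3 →+* LaurentSeries QA :=
    ((X0Bar (M * 3)).val.toRingHom).comp ((swapEnd hpM).toRingHom.comp (double h2).toRingHom)
  let ψ : X0Bar 3 →+* LaurentSeries QA :=
    (qExpand QA 2).comp (((X0Bar (M * 3)).val.toRingHom).comp
      ((swapEnd hpM).toRingHom.comp (inclLevel (M := M)).toRingHom))
  have hφ : ∀ y, φ y = (swapEnd hpM (double h2 y) : LaurentSeries QA) := fun _ => rfl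
  have hψ : ∀ y, ψ y = qExpand QA 2 (swapEnd hpM (inclLevel (M := M) y) : LaurentSeries QA) :=
    fun _ => rfl
  let x : X0Bar M := ⟨qExpand QA 2 (jqModC QA), by
    have h : ((heckeBetaBar QA 1 2 (Kronecker.jEl 1) : X0Bar (1 * 2)) : LaurentSeries QA) =
        qExpand QA 2 (jqModC QA) := by rw [coe_heckeBetaBar, Kronecker.coe_jEl]
    rw [← h]
    exact X0Bar_mono (by simpa using h2) (heckeBetaBar QA 1 2 (Kronecker.jEl 1)).2⟩
  have h : φ = ψ := by
    refine Kronecker.ringHom_ext 3 φ ψ (fun c => ?_) ?_ ?_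
    · rw [hφ, hψ, AlgHom.commutes, AlgHom.commutes, AlgHom.commutes, AlgHom.commutes,
        IntermediateField.coe_algebraMap_apply, algebraMap_laurentSeries_eq_single, qExpand_single,
        mul_zero]
    · have e : double h2 (Kronecker.jEl 3) = heckeAlphaBar QA M 3 x := Subtype.ext (by
        rw [coe_double, coe_heckeAlphaBar, Kronecker.coe_jEl])
      rw [hφ, hψ, e, swapEnd_alpha, coe_heckeBetaBar, inclLevel_jEl, swapEnd_alpha,
        coe_heckeBetaBar, Kronecker.coe_jEl, qExpand_qExpand]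
      rw [qExpand_qExpand]
    · have e : double h2 (Kronecker.jNEl 3) = heckeBetaBar QA M 3 x := Subtype.ext (by
        rw [coe_double, coe_heckeBetaBar, Kronecker.coe_jNEl, jqNModC, qExpand_qExpand]
        show _ = qExpand QA 3 (qExpand QA 2 (jqModC QA))
        rw [qExpand_qExpand])
      rw [hφ, hψ, e, swapEnd_beta, coe_heckeAlphaBar, inclLevel_jNEl, swapEnd_beta,
        coe_heckeAlphaBar, Kronecker.coe_jEl]
  exact (hφ z).symm.trans ((RingHom.congr_fun h z).trans (hψ z))

variable {A : ValuationSubring QA} [IsAlgClosed (ResidueField A)] [CharP (ResidueField A) 3]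
  [Curves.IsFunctionField (ResidueField A) (modularFunctionFieldFullC (ResidueField A) M)]
  (hA : A.LiesOverPrime 3)

local notation "kk" => ResidueField A

theorem qExpand_deltaInv :
    qExpand kk 3 (deltaInvSer kk) = deltaInvSer kk ^ 3 := by
  rw [Kronecker.laurent_pow_char 3, ModEq.coeffMap_deltaInvSer]

theorem unitSer_three : unitSer kk 3 = deltaInvSer kk ^ 2 := by
  rw [unitSer, qExpand_deltaInv]
  linear_combination deltaInvSer kk ^ 2 * ModEq.deltaSer_mul_inv kk

theorem qExpand_unitSer_three :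
    qExpand kk 2 (unitSer kk 3) = unitSer kk 3 * unitSer kk 2 ^ 2 := by
  rw [unitSer_three, map_pow, unitSer]
  linear_combination -(qExpand kk 2 (deltaInvSer kk) ^ 2) *
    (deltaInvSer kk * deltaSer kk + 1) * ModEq.deltaSer_mul_inv kk

include h2 hA in
/-- The unit of level two reduces to a function without zero or pole away from the cusps. -/
theorem exists_unit_two :
    ∃ r : modularFunctionFieldFullC kk M, (r : LaurentSeries kk) = unitSer kk 2 ∧ r ≠ 0 ∧
      ∀ P : Place kk (modularFunctionFieldFullC kk M),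
        0 ≤ P.ord (modularModel (π := residue A) residue_surjective M
          (natCast_ne_zero hpM kk)).xb → P.ord r = 0 := by
  haveI : Fact (Nat.Prime 2) := ⟨Nat.prime_two⟩
  obtain ⟨f, hf, hf0, hord⟩ := exists_level_unit 2
  haveI := instIsFunctionFieldX0Bar M
  haveI := instIsFunctionFieldX0Bar 2
  set MC := modularModel (π := residue A) residue_surjective M (natCast_ne_zero hpM kk) with hMC
  set i : X0Bar 2 →ₐ[QA] X0Bar M := IntermediateField.inclusion (X0Bar_mono h2) with hi
  set g := i f with hg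
  have hgs : (g : LaurentSeries QA) = unitSer QA 2 := by
    rw [hg, hi, IntermediateField.coe_inclusion, hf]
  have hg0 : g ≠ 0 := (map_ne_zero i).2 hf0
  have hx : MC.x = i (jF QA 2) := by
    rw [hMC, modelX_eq residue_surjective (natCast_ne_zero hpM kk), jF_eq_jEl]
    exact Subtype.ext (by rw [hi, IntermediateField.coe_inclusion, Kronecker.coe_jEl,
      Kronecker.coe_jEl])
  have hg_ord : ∀ v : Place QA (X0Bar M), 0 ≤ v.ord MC.x → v.ord g = 0 := fun v hv => by
    rw [hx, ord_map_eq i] at hv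
    rw [hg, ord_map_eq, hord _ ((mul_nonneg_iff_of_pos_left
      (by exact_mod_cast ramificationIndexAlong_pos i v)).1 hv), mul_zero]
  have hmem : coeffMap A.subtype (unitSer A 2) ∈ X0Bar M := by
    rw [MazurPrinciple.coeffMap_unitSer, ← hgs]; exact g.2
  have hres : (laurentReduction (residue A) (X0Bar M)).Res g (unitSer kk 2) := by
    have h := laurentReduction_res (π := residue A) hmem
    rwa [show (⟨coeffMap A.subtype (unitSer A 2), hmem⟩ : X0Bar M) = g from
      Subtype.ext ((MazurPrinciple.coeffMap_unitSer _ 2).trans hgs.symm),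
      MazurPrinciple.coeffMap_unitSer (residue A)] at h
  set r : modularFunctionFieldFullC kk M :=
    ⟨unitSer kk 2, res_mem_full residue_surjective M (natCast_ne_zero hpM kk) hres⟩ with hr
  have hr0 : r ≠ 0 := fun h => unitSer_ne_zero 2 (congrArg Subtype.val h)
  have hR : MC.Res g r := (modularModel_res residue_surjective M (natCast_ne_zero hpM kk)).2 hres
  have h1 := MC.integralWrt_res (fun v hv => ordGE_of_le (hg_ord v hv).ge) hR
  have h2' := MC.integralWrt_res (f := g⁻¹) (fun v hv => ordGE_of_le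
    (by rw [v.ord_inv, hg_ord v hv, neg_zero])) (hR.inv hr0)
  refine ⟨r, rfl, hr0, fun P hP => le_antisymm ?_ ((h1 P hP).le_ord hr0)⟩
  have := (h2' P hP).le_ord (inv_ne_zero hr0)
  rw [P.ord_inv] at this
  omega

include hpM in
theorem ord_double_unit {f : X0Bar 3}
    (h : ∀ v : Place QA (X0Bar 3), 0 ≤ v.ord (jF QA 3) → v.ord f = 0)
    {v : Place QA (X0Bar (M * 3))} (hv : 0 ≤ v.ord (inclLevel (M := M) (Kronecker.jEl 3))) :
    v.ord (double h2 f) = 0 := by
  haveI : Fact (Nat.Prime 2) := ⟨Nat.prime_two⟩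
  haveI := instIsFunctionFieldX0Bar (M * 3)
  haveI := instIsFunctionFieldX0Bar 3
  haveI := instIsFunctionFieldX0Bar (3 * 2)
  set i : X0Bar (3 * 2) →ₐ[QA] X0Bar (M * 3) :=
    IntermediateField.inclusion (X0Bar_mono (six_dvd h2))
  set w := below i v
  have hpos : (0 : ℤ) < Place.ramificationIndexAlong i v := by
    exact_mod_cast ramificationIndexAlong_pos i v
  have ha : 0 ≤ w.ord (heckeAlphaBar QA 3 2 (Kronecker.jEl 3)) := by
    rw [show inclLevel (M := M) (Kronecker.jEl 3) = i (heckeAlphaBar QA 3 2 (Kronecker.jEl 3)) from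
      Subtype.ext (by rw [coe_inclLevel, IntermediateField.coe_inclusion, coe_heckeAlphaBar]),
      ord_map_eq] at hv
    exact (mul_nonneg_iff_of_pos_left hpos).1 hv
  set a := heckeAlphaBar QA 3 2 (Kronecker.jEl 3)
  set b := heckeBetaBar QA 3 2 (Kronecker.jEl 3)
  set O := w.toValuationSubring
  have haO : a ∈ O := Curves.ordGE_zero_iff_mem.mp (Curves.ordGE_of_le ha)
  have hint : IsIntegral O b := by
    refine ⟨(ModEq.modularPolynomialData 2).Φ.map (evalAt (⟨a, haO⟩ : O)),
      (ModEq.modularPolynomialData 2).monic.map _, ?_⟩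
    rw [Polynomial.eval₂_map, show (algebraMap O _).comp (evalAt (⟨a, haO⟩ : O)) = evalAt a from
      ModEq.comp_evalAt (algebraMap O (modularFunctionFieldBar (3 * 2))) ⟨a, haO⟩,
      ← Polynomial.eval_map]
    exact BadRed.modularRel (M := 3) (q := 2)
  obtain ⟨z, hz⟩ := IsIntegrallyClosed.isIntegral_iff.mp hint
  have hb : 0 ≤ w.ord b := by
    by_contra hlt
    exact Curves.not_mem_iff_ord_neg.2 (not_le.1 hlt) (hz ▸ z.2)
  have hv2 : 0 ≤ v.ord (double h2 (Kronecker.jEl 3)) := by
    rw [double, AlgHom.comp_apply, ord_map_eq]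
    exact mul_nonneg hpos.le hb
  rw [ord_map_eq] at hv2
  rw [ord_map_eq, h _ (by
    rw [jF_eq_jEl]
    exact (mul_nonneg_iff_of_pos_left
      (by exact_mod_cast ramificationIndexAlong_pos (double h2) v)).1 hv2), mul_zero]

set_option maxHeartbeats 4000000 in
include hpM h2 hA in
/-- **The measuring functions at three.** -/
theorem exists_measure_three : Nonempty (Measure hpM hA) := by
  haveI := instIsFunctionFieldX0Bar M
  haveI := instIsFunctionFieldX0Bar (M * 3)
  haveI := instIsFunctionFieldX0Bar 3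
  have hπ : Function.Surjective (residue A) := residue_surjective
  have hR := rankOne_residue hA
  obtain ⟨U₀, hu, hu', hUw, hub⟩ := exists_unitData hpM (π := residue A) hπ hR
  obtain ⟨f, hf, hf0, hord⟩ := exists_level_unit 3
  set S := sheetAt hpM hA
  set u := inclLevel (M := M) f with hudef
  have hus : (u : LaurentSeries QA) = unitSer QA 3 := (coe_inclLevel f).trans hf
  set u₂ := double h2 f with hu₂def
  have hu₂s : (u₂ : LaurentSeries QA) = qExpand QA 2 (unitSer QA 3) := by
    rw [hu₂def, coe_double, hf]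
  have hmul : u * swapEnd hpM u = algebraMap QA (X0Bar (M * 3)) ((3 : QA) ^ 12) :=
    by simpa using swap_unit hpM hf
  have hmul₂ : u₂ * swapEnd hpM u₂ = algebraMap QA (X0Bar (M * 3)) ((3 : QA) ^ 12) := by
    refine Subtype.ext ?_
    have h := congrArg (fun z : X0Bar (M * 3) => qExpand QA 2 (z : LaurentSeries QA)) hmul
    simp only [IntermediateField.coe_mul, map_mul] at h
    rw [IntermediateField.coe_mul, hu₂def, swap_double, coe_double, hf, ← hus, h,
      IntermediateField.coe_algebraMap_apply, algebraMap_laurentSeries_eq_single, qExpand_single,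
      mul_zero]
  -- the cube root
  obtain ⟨φ₆, hφ₆⟩ := exists_phi
  set φ : X0Bar (M * 3) := ⟨phiSer QA,
    X0Bar_mono (show 6 ∣ M * 3 from six_dvd h2) (hφ₆ ▸ φ₆.2)⟩ with hφdef
  have hφs : (φ : LaurentSeries QA) = phiSer QA := rfl
  have hcube : φ ^ 3 = u * u₂ := Subtype.ext (by
    rw [IntermediateField.coe_pow, IntermediateField.coe_mul, hus, hu₂s, hφs, phiSer_cube])
  have hu0 : u ≠ 0 := (map_ne_zero _).2 hf0
  have hu₂0 : u₂ ≠ 0 := (map_ne_zero _).2 hf0
  have hφ0 : φ ≠ 0 := fun h => mul_ne_zero hu0 hu₂0 (by rw [← hcube, h, zero_pow three_ne_zero])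
  set φ' := ((3 : QA) ^ 8) • φ⁻¹ with hφ'def
  have hφφ' : φ * φ' = algebraMap QA (X0Bar (M * 3)) ((3 : QA) ^ 8) := by
    rw [hφ'def, Algebra.smul_def, mul_left_comm, mul_inv_cancel₀ hφ0, mul_one]
  have hcube' : φ' ^ 3 = swapEnd hpM u * swapEnd hpM u₂ := by
    refine mul_left_cancel₀ (pow_ne_zero 3 hφ0) ?_
    rw [← mul_pow, hφφ', hcube, mul_mul_mul_comm, hmul, hmul₂, ← map_pow, ← map_mul]
    ring_nf
  -- orders on the chart
  have hordu : ∀ v : Place QA (X0Bar (M * 3)), 0 ≤ v.ord S.X → v.ord u = 0 ∧ v.ord u₂ = 0 := by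
    intro v hv
    change 0 ≤ v.ord (modularSheet hpM hπ hR).X at hv
    rw [sheet_X_eq hpM hπ hR] at hv
    exact ⟨ord_inclLevel_eq_zero (by rw [← jF_eq_jEl]; exact hord) hv,
      ord_double_unit hpM h2 hord hv⟩
  have hordφ : ∀ v : Place QA (X0Bar (M * 3)), 0 ≤ v.ord S.X → v.ord φ = 0 := fun v hv => by
    have h := congrArg v.ord hcube
    rw [Curves.ord_pow, v.ord_mul hu0 hu₂0, (hordu v hv).1, (hordu v hv).2] at h
    push_cast at h
    omega
  obtain ⟨hint, hint'⟩ := integralWrt_of_ord_zero hordφ hφ'def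
  -- reductions
  set L := laurentReduction (residue A) (X0Bar (M * 3))
  have hresS : ∀ {z : X0Bar (M * 3)} {y : LaurentSeries A},
      coeffMap A.subtype y = (z : LaurentSeries QA) → L.Res z (coeffMap (residue A) y) := by
    intro z y hy
    have hmem : coeffMap A.subtype y ∈ X0Bar (M * 3) := by rw [hy]; exact z.2
    have h := laurentReduction_res (π := residue A) hmem
    rwa [show (⟨coeffMap A.subtype y, hmem⟩ : X0Bar (M * 3)) = z from Subtype.ext hy] at h
  have rφ : L.Res φ (phiSer kk) := by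
    have h := hresS (z := φ) (y := phiSer A) (coeffMap_phiSer _)
    rwa [coeffMap_phiSer] at h
  have ru₂ : L.Res u₂ (qExpand kk 2 (unitSer kk 3)) := by
    have h := hresS (z := u₂) (y := qExpand A 2 (unitSer A 3))
      (by rw [coeffMap_qExpand, MazurPrinciple.coeffMap_unitSer, hu₂s])
    rwa [coeffMap_qExpand, MazurPrinciple.coeffMap_unitSer] at h
  have ru : L.Res u (unitSer kk 3) := res_unitSer u hus
  set bφ : modularFunctionFieldFullC kk M := ⟨_, (modularPre hpM hπ hR).res_mem.1 rφ⟩
  set b₂ : modularFunctionFieldFullC kk M := ⟨_, (modularPre hpM hπ hR).res_mem.1 ru₂⟩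
  have hbcube : bφ ^ 3 = U₀.ub * b₂ := Subtype.ext (by
    rw [IntermediateField.coe_pow, IntermediateField.coe_mul, hub]
    exact phiSer_cube kk)
  have hb₂0 : b₂ ≠ 0 := fun h => unitSer_ne_zero (R := kk) 3 ((map_eq_zero (qExpand kk 2)).1
    (congrArg Subtype.val h))
  have hbφ0 : bφ ≠ 0 := fun h => mul_ne_zero U₀.ub_ne hb₂0 (by
    rw [← hbcube, h, zero_pow three_ne_zero])
  have r₁ : S.R₁.Res φ bφ := (sheet_res₁_iff hpM hπ hR).2 rφ
  have rsu : S.R₂.Res (swapEnd hpM u) U₀.ub := (sheet_res₂_iff hpM hπ hR).2 (by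
    rw [swapEnd_swapEnd, hub]; exact ru)
  have rsu₂ : S.R₂.Res (swapEnd hpM u₂) b₂ := (sheet_res₂_iff hpM hπ hR).2 (by
    rw [swapEnd_swapEnd]; exact ru₂)
  have r₂ : S.R₂.Res φ' bφ := by
    have hφ'0 : φ' ≠ 0 := by
      rw [hφ'def, Algebra.smul_def]
      exact mul_ne_zero ((_root_.map_ne_zero _).2 (by norm_num)) (inv_ne_zero hφ0)
    obtain ⟨d, g, hg, hd⟩ := S.scaled₂ φ' hφ'0
    have hd0 : d ≠ 0 := fun h0 => hg (by rw [h0, zero_smul] at hd; exact hd.unique S.R₂.res_zero)
    have h3 := hd.pow 3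
    rw [_root_.smul_pow, hcube'] at h3
    have hZ : S.R₂.Res (swapEnd hpM u * swapEnd hpM u₂) (bφ ^ 3) := hbcube ▸ rsu.mul rsu₂
    by_cases hdA : d ∈ A
    · have h4 := hZ.smul (⟨d, hdA⟩ ^ 3)
      rw [map_pow] at h4
      have e := h3.unique h4
      have hres : residue A ⟨d, hdA⟩ ≠ 0 := fun h0 => hg (by
        rw [h0, zero_pow three_ne_zero, zero_smul] at e
        exact (pow_eq_zero_iff three_ne_zero).1 e)
      have eg : g = residue A ⟨d, hdA⟩ • bφ :=
        pow_injective_fullC M 3 _ _ (by rw [e, _root_.smul_pow])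
      have hinv : d⁻¹ ∈ A := by
        refine ((ratVal hA).mem_iff _ (inv_ne_zero hd0)).2 ?_
        rw [(ratVal hA).v_inv hd0, ((ratVal hA).v_eq_zero_of_res (a := ⟨d, hdA⟩) hres).2, neg_zero]
      have h5 := hd.smul ⟨_, hinv⟩
      have e1 : residue A ⟨_, hinv⟩ • residue A ⟨d, hdA⟩ • bφ = bφ := by
        rw [smul_smul, ← map_mul (residue A),
          show (⟨_, hinv⟩ * ⟨d, hdA⟩ : A) = 1 from Subtype.ext (inv_mul_cancel₀ hd0), map_one,
          one_smul]
      have e2 : ((⟨d⁻¹, hinv⟩ : A) : QA) • d • φ' = φ' := by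
        rw [smul_smul, inv_mul_cancel₀ hd0, one_smul]
      rw [eg, e1, e2] at h5
      exact h5
    · exfalso
      have hinv := (A.mem_or_inv_mem d).resolve_left hdA
      have hres : residue A (⟨_, hinv⟩ : A) = 0 := by
        refine ((ratVal hA).res_iff _ (inv_ne_zero hd0)).2 ?_
        show 0 < (ratVal hA).v d⁻¹
        rw [(ratVal hA).v_inv hd0]
        linarith [not_le.1 (mt ((ratVal hA).mem_iff _ hd0).2 hdA)]
      have h6 := h3.smul (⟨_, hinv⟩ ^ 3)
      rw [smul_smul, map_pow, hres, zero_pow three_ne_zero, zero_smul,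
        show (((⟨_, hinv⟩ : A) ^ 3 : A) : QA) * d ^ 3 = 1 by
          push_cast; rw [inv_pow, inv_mul_cancel₀ (pow_ne_zero 3 hd0)], one_smul] at h6
      exact pow_ne_zero 3 hbφ0 (hZ.unique h6)
  have h0 : S.R₂.Res φ 0 := by
    have h := (r₂.inv hbφ0).smul ((3 : A) ^ 8)
    have e : ((((3 : A) ^ 8 : A)) : QA) = (3 : QA) ^ 8 := by
      push_cast; rfl
    have hz : residue A ((3 : A) ^ 8) = 0 := by
      have h3 : residue A (3 : A) = 0 := by
        rw [show (3 : A) = ((3 : ℕ) : A) by norm_num, map_natCast, CharP.cast_eq_zero]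
      rw [map_pow, h3, zero_pow (by norm_num)]
    rw [hz, zero_smul, e, hφ'def, Algebra.smul_def, Algebra.smul_def, mul_inv, inv_inv,
      ← mul_assoc, mul_inv_cancel₀ ((_root_.map_ne_zero _).2 (by norm_num)), one_mul] at h
    exact h
  have hV : S.V bφ = bφ ^ 3 := by
    refine pow_injective_fullC M 3 _ _ ?_
    rw [← map_pow, hbcube, map_mul, U₀.V_ub]
    have hb₂ : S.V b₂ = b₂ ^ 3 := by
      refine Subtype.ext ?_
      show qExpand kk 3 (qExpand kk 2 (unitSer kk 3)) = qExpand kk 2 (unitSer kk 3) ^ 3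
      rw [qExpand_qExpand, ← map_pow, ← qExpand_unitSer_char, qExpand_qExpand]
    rw [hb₂, ← mul_pow]
  have hp1 : (S.pair 1).Res φ (bφ, 0) := ⟨r₁, by rw [one_smul]; exact h0⟩
  let U : UnitData S :=
    { u := φ, u' := φ', ub := bφ, w := 8, w_pos := by norm_num
      mul_eq := by rw [hφφ']; norm_num
      u_int := hint, u'_int := hint', u_res := r₁, u'_res := r₂
      ub_reg := (S.integralWrt_res hint hp1).1, ub_ne := hbφ0, V_ub := hV }
  -- orders of the reductions
  obtain ⟨r, hr, hr0, hrord⟩ := exists_unit_two hpM h2 hA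
  have hb₂r : b₂ = U₀.ub * r ^ 2 := Subtype.ext (by
    rw [IntermediateField.coe_mul, IntermediateField.coe_pow, hub, hr]
    exact qExpand_unitSer_three)
  have hcd : ∀ P : Place kk (modularFunctionFieldFullC kk M),
      0 ≤ P.ord (modularModel (π := residue A) residue_surjective M (natCast_ne_zero hpM kk)).xb →
      3 * P.ord U.ub = 2 * P.ord U₀.ub := fun P hP => by
    have h := congrArg P.ord hbcube
    rw [hb₂r, Curves.ord_pow, P.ord_mul U₀.ub_ne (mul_ne_zero U₀.ub_ne (pow_ne_zero _ hr0)),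
      P.ord_mul U₀.ub_ne (pow_ne_zero _ hr0), Curves.ord_pow, hrord P hP] at h
    show 3 * P.ord bφ = _
    push_cast at h
    omega
  obtain ⟨s, hs, hso⟩ := exists_node_not_dvd hpM (by norm_num) (m := 9) (by norm_num) hA hπ hR
    U₀ hub
  obtain ⟨hsfin, hspos⟩ := U₀.mem_nodes.1 hs
  have hs3 := hcd s hsfin
  refine ⟨{ U₀ := U₀, U := U, c := 3, d := 2, s := s, hub := hub
            hfix := fun σ hσ => ?_, hw := by show ¬ 3 ∣ 8; norm_num
            hc := by norm_num, hcd := hcd
            hs := U.mem_nodes.2 ⟨hsfin, by omega⟩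
            hso := fun h => hso ?_ }⟩
  · obtain ⟨τ, -, rfl⟩ := hσ
    refine Subtype.ext ?_
    show ((arithmeticGalois (modularFunctionFieldFull (M * 3)) τ • φ : X0Bar (M * 3)) :
      LaurentSeries QA) = (φ : LaurentSeries QA)
    rw [coe_arithmeticGalois_smul, hφs, coeffMap_phiSer]
  · obtain ⟨z, hz⟩ := h
    push_cast at hz ⊢
    exact (by omega : (9 : ℤ) ∣ s.ord U₀.ub)

end FLTAgent.ModLift.AtP
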