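import Fermat.Agent.ModLift.AtP.Main
import Fermat.Agent.ModLift.AtP.Wild.Main
import Fermat.Agent.ModLift.LowerAway.Target

/-!
# The removal of `p` from a squarefree level
-/

set_option autoImplicit false

noncomputable section

namespace FLTAgent.ModLift

/-- **The removal of `p` from a squarefree level when the torsion is peu ramifiée at `p`.** -/
theorem targetLowerAtP : TargetLowerAtP :=
  targetLowerAtP_of targetWildData targetLowerAway

end FLTAgent.ModLift
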