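import Fermat.Agent.ModLift.AtP.Eta2
import Fermat.Agent.MazurPrinciple.UnitBasic

/-!
# The cube root of the measuring function at three on `X₀(6)`

`φ = (η(τ) η(2τ) / (η(3τ) η(6τ))) ^ 8` is invariant under `Γ₀(6)` and its cube is
`u(τ) u(2τ)` for `u = Δ(τ)/Δ(3τ)`; so it lies in the function field of `X₀(6)`.
-/

set_option autoImplicit false
set_option linter.style.haveILetI false
set_option linter.unusedSectionVars false
set_option maxHeartbeats 1000000
set_option synthInstance.maxHeartbeats 400000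

noncomputable section

open UpperHalfPlane hiding I I_re I_im
open Filter Topology Complex Function CongruenceSubgroup ModularCurve AlgebraicCurve
open FLTAgent.X0Fn (affMap qh Per PerL W0 expW expL iota)
open FLTAgent.ModEq (qp HasExp substHom deltaSer deltaInvSer etaFun)
open FLTAgent.ES (dlt)
open FLTAgent.Specialization (X0Bar)
open scoped MatrixGroups Manifold

namespace FLTAgent.ModLift.AtP

open FLTAgent.MazurPrinciple (unitSer)

local notation "QA" => AlgebraicClosure ℚ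

instance factPrimeThree : Fact (Nat.Prime 3) := ⟨Nat.prime_three⟩

/-- The series of `(η(τ) η(2τ)) ^ 8`. -/
def etaTwoSer (R : Type*) [CommRing R] : LaurentSeries R :=
  HahnSeries.single (1 : ℤ) 1 *
    HahnSeries.ofPowerSeries ℤ R ((etaProd ^ 8).map (Int.castRingHom R)) *
    qExpand R 2 (HahnSeries.ofPowerSeries ℤ R ((etaProd ^ 8).map (Int.castRingHom R)))

/-- The series of the cube root of `u(τ) u(2τ)`. -/
def phiSer (R : Type*) [CommRing R] : LaurentSeries R :=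
  etaTwoSer R * qExpand R 3 (etaTwoSer R ^ 2 * deltaInvSer R * qExpand R 2 (deltaInvSer R))

theorem coeffMap_etaTwoSer {R R' : Type*} [CommRing R] [CommRing R'] (f : R →+* R') :
    coeffMap f (etaTwoSer R) = etaTwoSer R' := by
  simp only [etaTwoSer, map_mul, coeffMap_qExpand, coeffMap_single, map_one, coeffMap_ofPowerSeries,
    ← RingHom.comp_apply (PowerSeries.map f), ← PowerSeries.map_comp,
    RingHom.ext_int (f.comp (Int.castRingHom R)) (Int.castRingHom R')]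

theorem coeffMap_phiSer {R R' : Type*} [CommRing R] [CommRing R'] (f : R →+* R') :
    coeffMap f (phiSer R) = phiSer R' := by
  simp only [phiSer, map_mul, map_pow, coeffMap_qExpand, coeffMap_etaTwoSer,
    ModEq.coeffMap_deltaInvSer]

theorem etaTwoSer_cube (R : Type*) [CommRing R] :
    etaTwoSer R ^ 3 = deltaSer R * qExpand R 2 (deltaSer R) := by
  simp only [etaTwoSer, mul_pow, deltaSer, dedekindEtaUnit, map_mul, map_pow, ← pow_mul]
  have h : qExpand R 2 (HahnSeries.single (1 : ℤ) (1 : R)) = HahnSeries.single (1 : ℤ) 1 ^ 2 := by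
    rw [qExpand_single]
    simp [pow_two, HahnSeries.single_mul_single]
  rw [h]
  ring

theorem phiSer_cube (R : Type*) [CommRing R] :
    phiSer R ^ 3 = unitSer R 3 * qExpand R 2 (unitSer R 3) := by
  have h1 := ModEq.deltaSer_mul_inv R
  have h2 : qExpand R 2 (deltaSer R) * qExpand R 2 (deltaInvSer R) = 1 := by
    rw [← map_mul, h1, map_one]
  set P := deltaInvSer R * qExpand R 2 (deltaInvSer R)
  have hP : etaTwoSer R ^ 3 * P = 1 := by
    rw [etaTwoSer_cube]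
    calc _ = (deltaSer R * deltaInvSer R) * (qExpand R 2 (deltaSer R) * qExpand R 2 (deltaInvSer R)) := by
          simp only [P]; ring
      _ = 1 := by rw [h1, h2, one_mul]
  have hin : (etaTwoSer R ^ 2 * deltaInvSer R * qExpand R 2 (deltaInvSer R)) ^ 3 = P := by
    calc _ = (etaTwoSer R ^ 3 * P) ^ 2 * P := by simp only [P]; ring
      _ = P := by rw [hP, one_pow, one_mul]
  rw [phiSer, mul_pow, ← map_pow, hin, etaTwoSer_cube]
  simp only [P, unitSer, map_mul, qExpand_qExpand]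
  ring

theorem scale_scale {a b : ℕ} (ha : a ≠ 0) (hb : b ≠ 0) (τ : ℍ) :
    scale a (scale b τ) = scale (a * b) τ := by
  apply UpperHalfPlane.ext
  rw [coe_scale ha, coe_scale hb, coe_scale (mul_ne_zero ha hb)]
  push_cast
  ring

theorem tendsto_scale {d : ℕ} (hd : d ≠ 0) : Tendsto (scale d) atImInfty atImInfty :=
  Mazur.tendsto_affMap hd one_ne_zero 0

theorem hasExp_scale {n d : ℕ} [NeZero n] [NeZero d] {f : ℍ → ℂ} {F : LaurentSeries ℂ}
    (h : HasExp 1 f F) : HasExp n (f ∘ scale d) (qExpand ℂ (d * n) F) := by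
  have h2 := h.comp_affine (n := n) (d * n) 1 (scale d)
    (fun τ => by rw [qp_scale (n := n) (NeZero.ne d)]; simp) (tendsto_scale (NeZero.ne d))
  rwa [ModEq.substHom_one] at h2

theorem hasExp_etaTwo : HasExp 1 etaTwo (etaTwoSer ℂ) := by
  have h8 := ModEq.hasExp_etaFun_pow (n := 1) 8
  have h2 := hasExp_scale (n := 1) (d := 2) h8
  refine (((h8.mul_single 1).mul h2).congr (Eventually.of_forall fun τ => ?_))
  simp [etaTwo]

/-- The cube root of `u(τ) u(2τ)`. -/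
def phiFun (τ : ℍ) : ℂ :=
  etaTwo τ * (etaTwo (scale 3 τ) ^ 2 * (dlt (scale 3 τ))⁻¹ * (dlt (scale 6 τ))⁻¹)

theorem phiFun_cube (τ : ℍ) :
    phiFun τ ^ 3 = Mazur.unitF 3 τ * Mazur.unitF 3 (scale 2 τ) := by
  have e : scale 6 τ = scale 2 (scale 3 τ) := by
    rw [scale_scale two_ne_zero (by norm_num : (3 : ℕ) ≠ 0)]
  have e2 : scale 3 (scale 2 τ) = scale 6 τ := by
    rw [scale_scale (by norm_num : (3 : ℕ) ≠ 0) two_ne_zero]
  have h : etaTwo (scale 3 τ) ^ 3 = dlt (scale 3 τ) * dlt (scale 6 τ) := by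
    rw [etaTwo_cube, e]
  have hA := etaTwo_cube τ
  have ha := ES.dlt_ne_zero (scale 3 τ)
  have hb := ES.dlt_ne_zero (scale 6 τ)
  have hu : ∀ z : ℍ, Mazur.unitF 3 z = dlt z * (dlt (scale 3 z))⁻¹ := fun z => rfl
  rw [hu, hu, e2, phiFun]
  generalize etaTwo τ = A at *
  generalize etaTwo (scale 3 τ) = B at *
  generalize dlt (scale 3 τ) = x at *
  generalize dlt (scale 6 τ) = y at *
  generalize dlt τ = u at *
  generalize dlt (scale 2 τ) = v at *
  calc (A * (B ^ 2 * x⁻¹ * y⁻¹)) ^ 3 = A ^ 3 * (B ^ 3) ^ 2 * (x⁻¹) ^ 3 * (y⁻¹) ^ 3 := by ring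
    _ = (u * v) * (x * y) ^ 2 * (x⁻¹) ^ 3 * (y⁻¹) ^ 3 := by rw [hA, h]
    _ = u * x⁻¹ * (v * y⁻¹) := by field_simp

theorem mdiff_phiFun : MDiff phiFun := by
  have h3 := mdiff_etaTwo.comp (X0Fn.mdiff_affMap (a := 3) (e := 1) (by norm_num) one_ne_zero 0)
  have hd : ∀ {d : ℕ}, d ≠ 0 → MDiff fun τ : ℍ => (dlt (scale d τ))⁻¹ := by
    intro d hd0
    have h1 := (ES.dlt_mem (Γ := ⊤)).2.1.comp (X0Fn.mdiff_affMap (a := d) hd0 one_ne_zero 0)
    rw [UpperHalfPlane.mdifferentiable_iff] at h1 ⊢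
    exact h1.inv fun z _ => ES.dlt_ne_zero _
  exact mdiff_etaTwo.mul (((h3.pow 2).mul (hd (by norm_num))).mul (hd (by norm_num)))

theorem phiFun_smul {γ : SL(2, ℤ)} (hγ : γ ∈ Gamma0 6) (τ : ℍ) : phiFun (γ • τ) = phiFun τ := by
  rw [Gamma0_mem, ZMod.intCast_zmod_eq_zero_iff_dvd] at hγ
  obtain ⟨c, hc⟩ := hγ
  push_cast at hc
  set γ' : SL(2, ℤ) := ⟨!![γ 0 0, 3 * γ 0 1; 2 * c, γ 1 1], by
    rw [Matrix.det_fin_two_of]
    have := GoodModel.det_eq γ
    rw [hc] at this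
    linear_combination this⟩ with hγ'
  have key : scale 3 (γ • τ) = γ' • scale 3 τ := by
    apply UpperHalfPlane.ext
    rw [coe_scale (by norm_num), UpperHalfPlane.coe_specialLinearGroup_apply,
      UpperHalfPlane.coe_specialLinearGroup_apply, coe_scale (by norm_num)]
    simp [hγ', hc]
    ring
  have hden : denom γ' (scale 3 τ : ℂ) = denom γ (τ : ℂ) := by
    rw [ModularGroup.denom_apply, ModularGroup.denom_apply, coe_scale (by norm_num)]
    simp [hγ', hc]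
    ring
  have h21 : (2 : ℤ) ∣ γ' 1 0 := ⟨c, by simp [hγ']⟩
  obtain ⟨γ'', h''⟩ := exists_conj_two h21
  have hd : denom γ (τ : ℂ) ≠ 0 := UpperHalfPlane.denom_ne_zero (γ : GL (Fin 2) ℝ) τ
  have e6 : ∀ z : ℍ, scale 6 z = scale 2 (scale 3 z) := fun z => by
    rw [scale_scale two_ne_zero (by norm_num : (3 : ℕ) ≠ 0)]
  have hA := etaTwo_smul (γ := γ) ⟨3 * c, by rw [hc]; ring⟩ τ
  have hB := etaTwo_smul h21 (scale 3 τ)
  have hx := ES.top_apply_smul ES.dlt_mem γ' (scale 3 τ)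
  have hy := ES.top_apply_smul ES.dlt_mem γ'' (scale 2 (scale 3 τ))
  rw [(h'' _).2, hden] at hy
  rw [hden] at hB hx
  rw [phiFun, phiFun, e6, e6, key, (h'' _).1, hA, hB, hx, hy]
  generalize etaTwo τ = A
  generalize etaTwo (scale 3 τ) = B
  generalize dlt (scale 3 τ) = x
  generalize dlt (scale 2 (scale 3 τ)) = y
  generalize denom γ (τ : ℂ) = d at hd ⊢
  rw [mul_inv, mul_inv, ← zpow_natCast d 8]
  field_simp
  simp only [← zpow_natCast, ← zpow_add₀ hd, ← zpow_mul]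
  norm_num
  ring

theorem hasExp_phiFun : HasExp 6 phiFun (qExpand ℂ 6 (phiSer ℂ)) := by
  haveI : NeZero (3 * 6) := ⟨by norm_num⟩
  have h1 : HasExp 6 (etaTwo ∘ scale 1) _ := hasExp_scale (n := 6) (d := 1) hasExp_etaTwo
  have h3 := hasExp_scale (n := 6) (d := 3) hasExp_etaTwo
  have hd3 := hasExp_scale (n := 6) (d := 3) ModEq.hasExp_discriminant_inv
  have hd6 := hasExp_scale (n := 6) (d := 6) ModEq.hasExp_discriminant_inv
  have h := h1.mul (((h3.mul h3).mul hd3).mul hd6)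
  have e : qExpand ℂ 6 (phiSer ℂ) = qExpand ℂ (1 * 6) (etaTwoSer ℂ) *
      (qExpand ℂ (3 * 6) (etaTwoSer ℂ) * qExpand ℂ (3 * 6) (etaTwoSer ℂ) *
        qExpand ℂ (3 * 6) (deltaInvSer ℂ) * qExpand ℂ (6 * 6) (deltaInvSer ℂ)) := by
    simp only [phiSer, map_mul, pow_two, qExpand_qExpand]
  rw [e]
  refine h.congr (Eventually.of_forall fun τ => ?_)
  have e1 : scale 1 τ = τ := UpperHalfPlane.ext (by rw [coe_scale one_ne_zero]; simp)
  simp only [Pi.mul_apply, Function.comp_apply, phiFun, e1, pow_two]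
  rfl

theorem phiFun_periodic (g : SL(2, ℤ)) (τ : ℍ) :
    phiFun (g • (((6 : ℕ) : ℝ) +ᵥ τ)) = phiFun (g • τ) := by
  have hT : ((6 : ℕ) : ℝ) +ᵥ τ = ModularGroup.T ^ (6 : ℤ) • τ := by
    rw [UpperHalfPlane.modular_T_zpow_smul]
    norm_num
  rw [hT, ← mul_smul]
  have h : g * ModularGroup.T ^ (6 : ℤ) * g⁻¹ ∈ Gamma0 6 := by
    rw [Gamma0_mem, ZMod.intCast_zmod_eq_zero_iff_dvd]
    refine ⟨-(g 1 0 * g 1 0), ?_⟩
    simp only [Matrix.SpecialLinearGroup.coe_mul, Matrix.SpecialLinearGroup.coe_inv,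
      ModularGroup.coe_T_zpow, Matrix.adjugate_fin_two, Matrix.mul_apply, Fin.sum_univ_two]
    simp
    ring
  have e := phiFun_smul h (g • τ)
  rw [← mul_smul, inv_mul_cancel_right] at e
  exact e

/-- Every transform of `u` is bounded by a power of the parameter. -/
theorem exists_bound_unitF (γ : SL(2, ℤ)) {a e : ℕ} (ha : a ≠ 0) (he : e ≠ 0) (ha2 : a ≤ 2)
    (b : ℤ) :
    ∃ M : ℕ, IsBoundedAtImInfty fun τ =>
      Mazur.unitF 3 (γ • affMap a e b τ) * qp 6 τ ^ M := by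
  obtain ⟨m, hm⟩ := (Mazur.unitF_mem (p := 3)).2.2 γ
  obtain ⟨hb, ha'⟩ : IsBoundedAtImInfty ((fun τ => Mazur.unitF 3 (γ • τ)) * qh ((3 : ℕ) : ℝ) ^ m) ∧
      0 < a := ⟨hm.2.2, Nat.pos_of_ne_zero ha⟩
  refine ⟨4 * m, ?_⟩
  have h1 : (fun τ => (Mazur.unitF 3 (γ • affMap a e b τ) *
      qh ((3 : ℕ) : ℝ) (affMap a e b τ) ^ m)) =O[atImInfty] (1 : ℍ → ℝ) :=
    (hb.comp_tendsto (Mazur.tendsto_affMap ha he b) : _)
  refine Asymptotics.IsBigO.trans (Asymptotics.isBigO_of_le _ fun τ => ?_) h1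
  rw [norm_mul, norm_mul, norm_pow, norm_pow, pow_mul]
  refine mul_le_mul_of_nonneg_left (pow_le_pow_left₀ (pow_nonneg (norm_nonneg _) _) ?_ _)
    (norm_nonneg _)
  simp only [qp, qh, Periodic.norm_qParam, ← Real.exp_nat_mul]
  refine Real.exp_le_exp.2 ?_
  rw [show (affMap a e b τ : ℂ).im = (a : ℝ) * τ.im / e by
    rw [X0Fn.coe_affMap ha he, Complex.div_natCast_im]
    simp]
  have h2 : (a : ℝ) ≤ 2 := by exact_mod_cast ha2
  have h3 : (1 : ℝ) ≤ e := by exact_mod_cast Nat.pos_of_ne_zero he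
  have h4 := τ.im_pos
  have h5 : (a : ℝ) * τ.im / e ≤ 2 * τ.im := by
    refine (div_le_self (mul_nonneg (by positivity) h4.le) h3).trans ?_
    exact mul_le_mul_of_nonneg_right h2 h4.le
  have := Real.pi_pos
  push_cast
  rw [UpperHalfPlane.coe_im]
  nlinarith

/-- `2 g τ` is a transform of one of `2τ`, `τ/2`, `(τ+1)/2`. -/
theorem exists_decomp_two (g : SL(2, ℤ)) :
    ∃ (γ : SL(2, ℤ)) (a e : ℕ) (b : ℤ), a ≠ 0 ∧ e ≠ 0 ∧ a ≤ 2 ∧
      ∀ τ : ℍ, scale 2 (g • τ) = γ • affMap a e b τ := by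
  have hdet := GoodModel.det_eq g
  rcases Int.even_or_odd (g 1 0) with ⟨c', hc⟩ | ⟨c', hc⟩
  · obtain ⟨γ', h'⟩ := exists_conj_two (γ := g) ⟨c', by rw [hc]; ring⟩
    exact ⟨γ', 2, 1, 0, two_ne_zero, one_ne_zero, le_rfl, fun τ => (h' τ).1⟩
  rcases Int.even_or_odd (g 1 1) with ⟨d', hd⟩ | ⟨d', hd⟩
  · set γ : SL(2, ℤ) := ⟨!![2 * g 0 0, g 0 1; g 1 0, d'], by
      rw [Matrix.det_fin_two_of]
      rw [hd] at hdet
      linear_combination hdet⟩ with hγ
    refine ⟨γ, 1, 2, 0, one_ne_zero, two_ne_zero, by norm_num, fun τ => UpperHalfPlane.ext ?_⟩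
    rw [coe_scale two_ne_zero, UpperHalfPlane.coe_specialLinearGroup_apply,
      UpperHalfPlane.coe_specialLinearGroup_apply, X0Fn.coe_affMap one_ne_zero two_ne_zero]
    have hg1 := UpperHalfPlane.denom_ne_zero (g : GL (Fin 2) ℝ) τ
    simp [UpperHalfPlane.denom, hd] at hg1
    simp [hγ, hd]
    field_simp
    ring
  · set γ : SL(2, ℤ) := ⟨!![2 * g 0 0, g 0 1 - g 0 0; g 1 0, d' - c'], by
      rw [Matrix.det_fin_two_of]
      rw [hd] at hdet
      linear_combination hdet + (g 0 0) * hc⟩ with hγ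
    refine ⟨γ, 1, 2, 1, one_ne_zero, two_ne_zero, by norm_num, fun τ => UpperHalfPlane.ext ?_⟩
    rw [coe_scale two_ne_zero, UpperHalfPlane.coe_specialLinearGroup_apply,
      UpperHalfPlane.coe_specialLinearGroup_apply, X0Fn.coe_affMap one_ne_zero two_ne_zero]
    have hg1 := UpperHalfPlane.denom_ne_zero (g : GL (Fin 2) ℝ) τ
    simp [UpperHalfPlane.denom, hd, hc] at hg1
    simp [hγ, hd, hc]
    field_simp
    ring

theorem phiFun_mem : phiFun ∈ W0 6 := by
  refine ⟨mdiff_phiFun, fun γ hγ τ => phiFun_smul hγ τ, fun g => ?_⟩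
  obtain ⟨γ, a, e, b, ha, he, ha2, hg2⟩ := exists_decomp_two g
  obtain ⟨M₁, h₁⟩ := exists_bound_unitF g (a := 1) (e := 1) one_ne_zero one_ne_zero one_le_two 0
  obtain ⟨M₂, h₂⟩ := exists_bound_unitF γ ha he ha2 b
  refine ⟨M₁ + M₂, (X0Fn.comp_smul_mdiff mdiff_phiFun g).mul (X0Fn.mdiff_qh.pow _), fun z => ?_, ?_⟩
  · have hq := X0Fn.periodic_qh (h := ((6 : ℕ) : ℝ)) z
    simp only [comp_apply] at hq
    simp only [comp_apply, Pi.mul_apply, Pi.pow_apply, hq]
    congr 1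
    by_cases hz : 0 < z.im
    · have hz1 : 0 < (z + (((6 : ℕ) : ℝ) : ℂ)).im := by simpa using hz
      rw [ofComplex_apply_of_im_pos hz, ofComplex_apply_of_im_pos hz1, ← phiFun_periodic g ⟨z, hz⟩]
      congr 2
      apply UpperHalfPlane.ext
      simp [add_comm]
    · have hz1 : (z + (((6 : ℕ) : ℝ) : ℂ)).im ≤ 0 := by simpa using not_lt.mp hz
      rw [ofComplex_apply_of_im_nonpos hz1, ofComplex_apply_of_im_nonpos (not_lt.mp hz)]
  · have hq : IsBoundedAtImInfty (qp 6) := X0Fn.bdd_qh (h := ((6 : ℕ) : ℝ))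
    have hall : IsBoundedAtImInfty fun τ => ((fun z => phiFun (g • z)) *
        qh ((6 : ℕ) : ℝ) ^ (M₁ + M₂)) τ ^ 3 := by
      have h : IsBoundedAtImInfty fun τ => (Mazur.unitF 3 (g • affMap 1 1 0 τ) * qp 6 τ ^ M₁) *
          (Mazur.unitF 3 (γ • affMap a e b τ) * qp 6 τ ^ M₂) * qp 6 τ ^ (2 * (M₁ + M₂)) := by
        have hqM : IsBoundedAtImInfty fun τ => qp 6 τ ^ (2 * (M₁ + M₂)) := by
          have h := hq.pow (2 * (M₁ + M₂))
          simpa [IsBoundedAtImInfty, BoundedAtFilter, Pi.one_def] using h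
        exact (h₁.mul h₂).mul hqM
      refine h.congr_left fun τ => ?_
      have e1 : affMap 1 1 0 τ = τ := UpperHalfPlane.ext (by
        rw [X0Fn.coe_affMap one_ne_zero one_ne_zero]; simp)
      simp only [Pi.mul_apply, Pi.pow_apply, mul_pow, phiFun_cube, e1, hg2, qh, qp, ← pow_mul]
      ring
    obtain ⟨C, hC⟩ := (Asymptotics.isBigO_iff.1 hall)
    refine Asymptotics.isBigO_iff.2 ⟨|C| + 1, hC.mono fun τ hτ => ?_⟩
    simp only [norm_pow, Pi.one_apply, norm_one, mul_one] at hτ ⊢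
    nlinarith [norm_nonneg (((fun z => phiFun (g • z)) * qh ((6 : ℕ) : ℝ) ^ (M₁ + M₂)) τ),
      abs_nonneg C, le_abs_self C, sq_nonneg (‖((fun z => phiFun (g • z)) *
        qh ((6 : ℕ) : ℝ) ^ (M₁ + M₂)) τ‖ - 1)]

/-- The cube root lies in the function field of `X₀(6)`. -/
theorem exists_phi : ∃ f : X0Bar 6, (f : LaurentSeries QA) = phiSer QA := by
  set κ := Mazur.kappa0
  set W : W0 6 := ⟨phiFun, phiFun_mem⟩
  have hW : iota (N := 6) κ (phiSer QA) = expW 6 W := by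
    refine HasExp.unique ?_ (Mazur.hasExp_expL ⟨_, X0Fn.W0_le_PerL W.2⟩)
    rw [X0Fn.iota, RingHom.comp_apply, coeffMap_phiSer]
    exact hasExp_phiFun
  exact ⟨⟨phiSer QA, TorsionHom.mem_XF_of_W0 κ (A := W) (B := 1) (fun h => one_ne_zero (congrFun
    (congrArg (fun f : W0 6 => (f : ℍ → ℂ)) h) UpperHalfPlane.I))
    (by rw [map_one, mul_one, hW])⟩, rfl⟩

end FLTAgent.ModLift.AtP
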